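import Fermat.Agent.EllP.Reduce
import Fermat.Agent.EllLocal.Torsion
import Fermat.Agent.GalCommon.Frobenius

/-!
# A stable line in `E[p]` of a semistable curve

Let `p` be an odd prime and suppose that every inertia group moves `E[p]` into `E₀`
(`InertiaMovesIntoE0`, a consequence of semistability). Then a Galois-stable line is either
pointwise fixed or has pointwise fixed quotient (`line_fixed_or_quotient_fixed`): inertia away from
`p` fixes both (`inertia_fixes_line_and_quotient`), inertia at `p` fixes one of them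
(`inertia_fixes_line_or_quotient`), and Minkowski's theorem concludes.
-/

set_option autoImplicit false

noncomputable section

open Polynomial WeierstrassCurve WeierstrassCurve.Affine.Point
open scoped WeierstrassCurve.Affine Pointwise

namespace FLTAgent.EllP

local notation "Qb" => AlgebraicClosure ℚ
local notation "GQ" => (AlgebraicClosure ℚ ≃ₐ[ℚ] AlgebraicClosure ℚ)

/-- Inertia at `A` moves every `p`-torsion point by an element of `E₀`. -/
def InertiaMovesIntoE0 (W : WeierstrassCurve ℤ) (p : ℕ) (A : ValuationSubring Qb) : Prop :=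
  ∀ σ ∈ A.inertiaSubgroupIn ℚ, ∀ P : QTorsion W p,
    toModel A (((σ • P - P : QTorsion W p)) : QPoint W) ∈ EllLocal.E0 A (modelAt A W)

variable {W : WeierstrassCurve ℤ} {p : ℕ} [Fact p.Prime]

/-- The points of `E[p]` in `E₁`. -/
def torsionE1 (A : ValuationSubring Qb) : Submodule (ZMod p) (QTorsion W p) :=
  AddSubgroup.toZModSubmodule p ((EllLocal.E1 A (modelAt A W)).comap
    ((toModel A).toAddMonoidHom.comp (QTorsion W p).subtype.toAddMonoidHom))

/-- The points of `E[p]` in `E₀`. -/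
def torsionE0 (A : ValuationSubring Qb) : Submodule (ZMod p) (QTorsion W p) :=
  AddSubgroup.toZModSubmodule p ((EllLocal.E0 A (modelAt A W)).comap
    ((toModel A).toAddMonoidHom.comp (QTorsion W p).subtype.toAddMonoidHom))

theorem torsionE1_le_torsionE0 (A : ValuationSubring Qb) :
    (torsionE1 A : Submodule (ZMod p) (QTorsion W p)) ≤ torsionE0 A :=
  fun _ h => EllLocal.E1_le_E0 h

theorem smul_sub_mem_torsionE1 {A : ValuationSubring Qb} {q : ℕ} (hq : q.Prime)
    (hA : A.LiesOverPrime q) {σ : GQ} (hσ : σ ∈ A.inertiaSubgroupIn ℚ) {P : QTorsion W p}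
    (hP : P ∈ torsionE0 A) : σ • P - P ∈ torsionE1 A :=
  smul_sub_mem_E1 A hq hA hσ hP

omit [Fact p.Prime] in
theorem natCast_residue_ne_zero {A : ValuationSubring Qb} {q : ℕ} (hq : q.Prime)
    (hA : A.LiesOverPrime q) (hp : p.Prime) (hqp : q ≠ p) :
    (p : IsLocalRing.ResidueField A) ≠ 0 := by
  rw [← map_natCast (IsLocalRing.residue A), Ne, IsLocalRing.residue_eq_zero_iff,
    ← ValuationSubring.coe_mem_nonunits_iff]
  intro h
  have h' : ((p : ℤ) : Qb) ∈ A.nonunits := by simpa using h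
  exact hqp ((Nat.prime_dvd_prime_iff_eq hq hp).1
    (Int.natCast_dvd_natCast.1 ((intCast_mem_nonunits hq hA).1 h')))

/-- At a place prime to `p`, inertia acts unipotently on `E[p]`. -/
theorem smul_sub_smul_sub_eq_zero {A : ValuationSubring Qb} {q : ℕ} (hq : q.Prime)
    (hA : A.LiesOverPrime q) (hqp : q ≠ p) (hmove : InertiaMovesIntoE0 W p A) {σ : GQ}
    (hσ : σ ∈ A.inertiaSubgroupIn ℚ) (P : QTorsion W p) :
    σ • (σ • P - P) - (σ • P - P) = 0 := by
  set R := σ • (σ • P - P) - (σ • P - P) with hR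
  have h := smul_sub_mem_torsionE1 hq hA hσ (P := σ • P - P) (hmove σ hσ P)
  have h0 : p • toModel A (R : QPoint W) = 0 := by
    rw [← map_nsmul]
    have := R.2
    rw [Submodule.mem_torsionBy_iff, natCast_zsmul] at this
    rw [this, _root_.map_zero]
  have hz := EllLocal.eq_zero_of_nsmul_eq_zero h (natCast_residue_ne_zero hq hA Fact.out hqp) h0
  exact Subtype.ext ((toModel A).injective (hz.trans (_root_.map_zero _).symm))

variable {V : Type*} [AddCommGroup V] [Module (ZMod p) V]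

theorem submodule_card_cases (hV : Nat.card V = p ^ 2) (X : Submodule (ZMod p) V) :
    X = ⊥ ∨ Nat.card X = p ∨ X = ⊤ := by
  have : Finite V := Nat.finite_of_card_ne_zero (by simp [hV, (Fact.out : p.Prime).ne_zero])
  obtain ⟨i, hi, hX⟩ := (Nat.dvd_prime_pow (Fact.out : p.Prime)).1
    (hV ▸ AddSubgroup.card_addSubgroup_dvd_card X.toAddSubgroup)
  replace hX : Nat.card X = p ^ i := hX
  interval_cases i
  · exact Or.inl ((Submodule.eq_bot_iff X).2 fun x hx => by
      have := Nat.card_eq_one_iff_unique.1 (hX.trans (pow_zero p))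
      have := this.1
      exact congrArg Subtype.val (Subsingleton.elim (⟨x, hx⟩ : X) 0))
  · exact Or.inr (Or.inl (by simpa using hX))
  · refine Or.inr (Or.inr (Submodule.toAddSubgroup_injective ?_))
    exact AddSubgroup.eq_top_of_card_eq _ (hX.trans hV.symm)

theorem eq_of_le_line (hV : Nat.card V = p ^ 2) {N X : Submodule (ZMod p) V}
    (hN : Nat.card N = p) (hle : N ≤ X) : X = N ∨ X = ⊤ := by
  have : Finite V := Nat.finite_of_card_ne_zero (by simp [hV, (Fact.out : p.Prime).ne_zero])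
  rcases submodule_card_cases hV X with h | h | h
  · subst h
    exact Or.inl (le_antisymm bot_le hle)
  · exact Or.inl (Submodule.toAddSubgroup_injective
      (AddSubgroup.eq_of_le_of_card_ge hle (by change Nat.card X ≤ Nat.card N; omega)).symm)
  · exact Or.inr h

theorem line_inf_eq_bot (hV : Nat.card V = p ^ 2) {N X : Submodule (ZMod p) V}
    (hN : Nat.card N = p) (hle : ¬N ≤ X) : N ⊓ X = ⊥ := by
  rcases submodule_card_cases hV (N ⊓ X) with h | h | h
  · exact h
  · have : Finite V := Nat.finite_of_card_ne_zero (by simp [hV, (Fact.out : p.Prime).ne_zero])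
    have h' : N ⊓ X = N := Submodule.toAddSubgroup_injective
      (AddSubgroup.eq_of_le_of_card_ge (inf_le_left : N ⊓ X ≤ N)
        (by change Nat.card N ≤ Nat.card ↥(N ⊓ X); omega))
    exact absurd (inf_eq_left.1 h') hle
  · exact absurd ((inf_eq_top_iff.1 h).2 ▸ le_top) hle

variable (hV : Nat.card (QTorsion W p) = p ^ 2)

include hV in
/-- At a place over `p`: inertia fixes a stable line pointwise, or fixes the quotient. -/
theorem inertia_fixes_line_or_quotient (hΔ : W.Δ ≠ 0) (hp2 : p ≠ 2)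
    (A : ValuationSubring Qb) (hA : A.LiesOverPrime p) (hmove : InertiaMovesIntoE0 W p A)
    (N : Submodule (ZMod p) (QTorsion W p)) (hN : Nat.card N = p)
    (hstab : ∀ σ : GQ, ∀ P ∈ N, σ • P ∈ N) :
    (∀ σ ∈ A.inertiaSubgroupIn ℚ, ∀ P ∈ N, σ • P = P) ∨
      (∀ σ ∈ A.inertiaSubgroupIn ℚ, ∀ P, σ • P - P ∈ N) := by
  have hp : p.Prime := Fact.out
  by_cases hN0 : N ≤ torsionE0 A
  swap
  · left
    intro σ hσ P hP
    have h : σ • P - P ∈ N ⊓ torsionE0 A := ⟨sub_mem (hstab σ P hP) hP, hmove σ hσ P⟩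
    rw [line_inf_eq_bot hV hN hN0, Submodule.mem_bot, sub_eq_zero] at h
    exact h
  by_cases hN1 : N ≤ torsionE1 A
  swap
  · left
    intro σ hσ P hP
    have h : σ • P - P ∈ N ⊓ torsionE1 A :=
      ⟨sub_mem (hstab σ P hP) hP, smul_sub_mem_torsionE1 hp hA hσ (hN0 hP)⟩
    rw [line_inf_eq_bot hV hN hN1, Submodule.mem_bot, sub_eq_zero] at h
    exact h
  right
  rcases eq_of_le_line hV hN hN1 with h1 | h1
  · intro σ hσ P
    rcases eq_of_le_line hV hN hN0 with h0 | h0
    · rw [← h0]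
      exact hmove σ hσ P
    · rw [← h1]
      exact smul_sub_mem_torsionE1 hp hA hσ (h0 ▸ Submodule.mem_top)
  · refine (not_inertiaStable_line_of_formal W hΔ hp hp2 A hA ?_ N hN fun σ _ => hstab σ).elim
    · intro P
      have hP : P ∈ torsionE1 A := h1 ▸ Submodule.mem_top
      exact (mem_E1_iff A).1 hP

include hV in
/-- At a place prime to `p`, inertia fixes a stable line and the quotient. -/
theorem inertia_fixes_line_and_quotient {A : ValuationSubring Qb} {q : ℕ} (hq : q.Prime)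
    (hA : A.LiesOverPrime q) (hqp : q ≠ p) (hmove : InertiaMovesIntoE0 W p A)
    (N : Submodule (ZMod p) (QTorsion W p)) (hN : Nat.card N = p)
    (hstab : ∀ σ : GQ, ∀ P ∈ N, σ • P ∈ N) {σ : GQ} (hσ : σ ∈ A.inertiaSubgroupIn ℚ) :
    (∀ P ∈ N, σ • P = P) ∧ ∀ P, σ • P - P ∈ N := by
  let K : Submodule (ZMod p) (QTorsion W p) := AddSubgroup.toZModSubmodule p
    ((DistribSMul.toAddMonoidHom (QTorsion W p) σ - AddMonoidHom.id _).ker)
  have hK : ∀ P, P ∈ K ↔ σ • P - P = 0 := fun P => AddMonoidHom.mem_ker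
  have hsq := smul_sub_smul_sub_eq_zero hq hA hqp hmove hσ
  have hline : ∀ P ∈ N, σ • P = P := by
    by_contra hcon
    push Not at hcon
    obtain ⟨P, hP, hne⟩ := hcon
    have hnle : ¬N ≤ K := fun h => hne (sub_eq_zero.1 ((hK P).1 (h hP)))
    have h : σ • P - P ∈ N ⊓ K := ⟨sub_mem (hstab σ P hP) hP, (hK _).2 (hsq P)⟩
    rw [line_inf_eq_bot hV hN hnle, Submodule.mem_bot, sub_eq_zero] at h
    exact hne h
  refine ⟨hline, fun P => ?_⟩
  have hNK : N ≤ K := fun Q hQ => (hK Q).2 (sub_eq_zero.2 (hline Q hQ))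
  rcases eq_of_le_line hV hN hNK with h | h
  · exact h ▸ (hK _).2 (hsq P)
  · rw [(hK P).1 (h ▸ Submodule.mem_top)]; exact zero_mem N

include hV in
/-- **A stable line of a semistable curve is pointwise fixed, or the quotient is.** -/
theorem line_fixed_or_quotient_fixed (hΔ : W.Δ ≠ 0) (hp2 : p ≠ 2)
    (hmove : ∀ q : ℕ, q.Prime → ∀ A : ValuationSubring Qb, A.LiesOverPrime q →
      InertiaMovesIntoE0 W p A)
    (F : IntermediateField ℚ Qb) [FiniteDimensional ℚ F]
    (hF : ∀ σ ∈ F.fixingSubgroup, ∀ P : QTorsion W p, σ • P = P)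
    (N : Submodule (ZMod p) (QTorsion W p)) (hN : Nat.card N = p)
    (hstab : ∀ σ : GQ, ∀ P ∈ N, σ • P ∈ N) :
    (∀ σ : GQ, ∀ P ∈ N, σ • P = P) ∨ (∀ σ : GQ, ∀ P, σ • P - P ∈ N) := by
  have hp : p.Prime := Fact.out
  let U1 : Subgroup GQ :=
    { carrier := {σ | ∀ P ∈ N, σ • P = P}
      one_mem' := fun P _ => one_smul _ P
      mul_mem' := fun {σ τ} hσ hτ P hP => by rw [mul_smul, hτ P hP, hσ P hP]
      inv_mem' := fun {σ} hσ P hP => inv_smul_eq_iff.2 (hσ P hP).symm }
  let U2 : Subgroup GQ :=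
    { carrier := {σ | ∀ P, σ • P - P ∈ N}
      one_mem' := fun P => by simp
      mul_mem' := fun {σ τ} hσ hτ P => by
        simpa [mul_smul] using add_mem (hσ (τ • P)) (hτ P)
      inv_mem' := fun {σ} hσ P => by simpa using neg_mem (hσ (σ⁻¹ • P)) }
  have hN1 : ∀ σ ∈ U1, ∀ g : GQ, g * σ * g⁻¹ ∈ U1 := by
    intro σ hσ g P hP
    rw [mul_smul, mul_smul, hσ _ (hstab _ P hP), smul_inv_smul]
  have hN2 : ∀ σ ∈ U2, ∀ g : GQ, g * σ * g⁻¹ ∈ U2 := by
    intro σ hσ g P
    simpa [mul_smul, smul_sub] using hstab g _ (hσ (g⁻¹ • P))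
  obtain ⟨A0, hA0⟩ := GalCommon.exists_liesOverPrime hp
  have hall : ∀ U : Subgroup GQ, (∀ σ ∈ U, ∀ g : GQ, g * σ * g⁻¹ ∈ U) →
      A0.inertiaSubgroupIn ℚ ≤ U →
      (∀ q : ℕ, q.Prime → q ≠ p → ∀ A : ValuationSubring Qb, A.LiesOverPrime q →
        A.inertiaSubgroupIn ℚ ≤ U) → F.fixingSubgroup ≤ U → U = ⊤ := by
    intro U hnorm h0 hq' hFU
    refine eq_top_of_inertia_le U F hFU fun q hq A hA => ?_
    by_cases hqp : q = p
    · subst hqp
      obtain ⟨g, rfl⟩ := GalCommon.exists_smul_eq_of_liesOverPrime hp hA0 hA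
      intro σ hσ
      have h := GalCommon.mem_inertia_conj hσ g⁻¹
      rw [inv_smul_smul, inv_inv] at h
      have h' := hnorm _ (h0 h) g
      simpa [mul_assoc] using h'
    · exact hq' q hq hqp A hA
  have hother := fun q (hq : q.Prime) (hqp : q ≠ p) A (hA : A.LiesOverPrime q) σ
    (hσ : σ ∈ A.inertiaSubgroupIn ℚ) =>
      inertia_fixes_line_and_quotient hV hq hA hqp (hmove q hq A hA) N hN hstab hσ
  rcases inertia_fixes_line_or_quotient hV hΔ hp2 A0 hA0 (hmove p hp A0 hA0) N hN hstab with h | h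
  · left
    have := hall U1 hN1 h (fun q hq hqp A hA σ hσ => (hother q hq hqp A hA σ hσ).1)
      (fun σ hσ P _ => hF σ hσ P)
    intro σ
    exact (this ▸ Subgroup.mem_top σ : σ ∈ U1)
  · right
    have := hall U2 hN2 h (fun q hq hqp A hA σ hσ => (hother q hq hqp A hA σ hσ).2)
      (fun σ hσ P => by rw [hF σ hσ P, sub_self]; exact zero_mem N)
    intro σ
    exact (this ▸ Subgroup.mem_top σ : σ ∈ U2)

end FLTAgent.EllP
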