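import Fermat.Agent.EllP.Supersingular
import Fermat.Agent.EllLocal.Reduction

/-!
# Reduction of the geometric points of an integral Weierstrass curve

`toModel` transports geometric points to the model at a place `A`, where `EllLocal.E1` becomes
`InFormalAt` (`mem_E1_iff`). The main result `smul_sub_mem_E1` says that inertia acts trivially on
nonsingular reductions: `σ P - P ∈ E₁` for `P ∈ E₀`.
-/

set_option autoImplicit false

noncomputable section

open Polynomial WeierstrassCurve WeierstrassCurve.Affine.Point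
open scoped WeierstrassCurve.Affine

namespace FLTAgent.EllP

local notation "Qb" => AlgebraicClosure ℚ
local notation "GQ" => (AlgebraicClosure ℚ ≃ₐ[ℚ] AlgebraicClosure ℚ)

/-- The model over a place of an integral Weierstrass curve. -/
abbrev modelAt (A : ValuationSubring Qb) (W : WeierstrassCurve ℤ) : WeierstrassCurve A :=
  W.map (Int.castRingHom A)

theorem genCurve_modelAt (A : ValuationSubring Qb) (W : WeierstrassCurve ℤ) :
    EllLocal.genCurve A (modelAt A W) = ((W.map (Int.castRingHom ℚ))⁄Qb).toAffine := by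
  change ((W.map (Int.castRingHom A)).map A.subtype : WeierstrassCurve Qb) =
    (W.map (Int.castRingHom ℚ)).map (algebraMap ℚ Qb)
  rw [WeierstrassCurve.map_map, WeierstrassCurve.map_map]
  congr 1

/-- Transport of points along an equality of curves. -/
def pointCongr {F : Type*} [Field F] [DecidableEq F] {E E' : Affine F} (h : E = E') :
    E.Point ≃+ E'.Point := h ▸ AddEquiv.refl _

theorem pointCongr_some {F : Type*} [Field F] [DecidableEq F] {E E' : Affine F} (h : E = E')
    {x y : F} (hxy : E.Nonsingular x y) :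
    pointCongr h (.some x y hxy) = .some x y (h ▸ hxy) := by
  subst h; rfl

variable {W : WeierstrassCurve ℤ} (A : ValuationSubring Qb)

/-- A geometric point of an integral curve as a point of the model at `A`. -/
def toModel : QPoint W ≃+ (EllLocal.genCurve A (modelAt A W)).Point :=
  pointCongr (genCurve_modelAt A W).symm

theorem toModel_some {x y : Qb} (h : ((W.map (Int.castRingHom ℚ))⁄Qb).toAffine.Nonsingular x y) :
    toModel A (Affine.Point.some x y h : QPoint W) =
      .some x y ((genCurve_modelAt A W).symm ▸ h) :=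
  pointCongr_some _ h

/-- `E₁` consists of the points reducing to infinity. -/
theorem mem_E1_iff {P : QPoint W} :
    toModel A P ∈ EllLocal.E1 A (modelAt A W) ↔ InFormalAt A P := by
  cases P with
  | zero => exact iff_of_true ((map_zero (toModel A)).symm ▸ zero_mem _) (Or.inl rfl)
  | some x y h =>
    rw [toModel_some]
    exact ⟨fun h' => Or.inr h', fun h' => h'.resolve_left (by simp)⟩

theorem exists_lift_of_not_formal {P : QPoint W} {a b : A}
    (h : EllLocal.IsLift (toModel A P) a b) :
    ∃ hn, P = (Affine.Point.some (a : Qb) (b : Qb) hn : QPoint W) := by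
  obtain ⟨hn, h⟩ := h
  have hn' := hn
  rw [genCurve_modelAt A W] at hn'
  refine ⟨hn', (toModel A).injective ?_⟩
  rw [toModel_some, h]

theorem smul_some_qbar (σ : GQ) {x y : Qb}
    (h : ((W.map (Int.castRingHom ℚ))⁄Qb).toAffine.Nonsingular x y) :
    ∃ h', σ • (Affine.Point.some x y h : QPoint W) = .some (σ x) (σ y) h' :=
  ⟨_, rfl⟩

theorem residue_eq_of_inertia {q : ℕ} (hq : q.Prime) (hA : A.LiesOverPrime q) {σ : GQ}
    (hσ : σ ∈ A.inertiaSubgroupIn ℚ) (a : A) :
    ∃ a' : A, (a' : Qb) = σ a ∧ IsLocalRing.residue A a' = IsLocalRing.residue A a := by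
  have hσ' := (mem_inertiaSubgroupIn_iff hq hA).1 hσ
  refine ⟨⟨σ a, map_mem_of_mem_inertia hq hA hσ' a.2⟩, rfl, Ideal.Quotient.eq.2 ?_⟩
  rw [← ValuationSubring.coe_mem_nonunits_iff]
  exact smul_sub_mem_nonunits hq hA hσ' a.2

theorem inFormalAt_smul {q : ℕ} (hq : q.Prime) (hA : A.LiesOverPrime q) {σ : GQ}
    (hσ : σ ∈ A.inertiaSubgroupIn ℚ) {P : QPoint W} (hP : InFormalAt A P) :
    InFormalAt A (σ • P) := by
  rcases hP with rfl | hP
  · exact Or.inl (smul_zero (A := QPoint W) σ)
  · refine Or.inr fun h => hP ?_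
    rw [xCoord_smul] at h
    have h' := map_mem_of_mem_inertia hq hA
      ((mem_inertiaSubgroupIn_iff hq hA).1 (inv_mem hσ)) h
    rwa [← AlgEquiv.mul_apply, inv_mul_cancel, AlgEquiv.one_apply] at h'

/-- Inertia acts trivially on nonsingular reductions: `σ P - P ∈ E₁` for `P ∈ E₀`. -/
theorem smul_sub_mem_E1 {q : ℕ} (hq : q.Prime) (hA : A.LiesOverPrime q) {σ : GQ}
    (hσ : σ ∈ A.inertiaSubgroupIn ℚ) {P : QPoint W}
    (hP : toModel A P ∈ EllLocal.E0 A (modelAt A W)) :
    toModel A (σ • P - P) ∈ EllLocal.E1 A (modelAt A W) := by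
  rw [map_sub, sub_eq_add_neg]
  rcases hP with hP | ⟨a, b, hl, hns⟩
  · exact (EllLocal.E1 A (modelAt A W)).add_mem
      ((mem_E1_iff A).2 (inFormalAt_smul A hq hA hσ ((mem_E1_iff A).1 hP))) (neg_mem hP)
  · obtain ⟨hn, rfl⟩ := exists_lift_of_not_formal A hl
    obtain ⟨a', ha', hra⟩ := residue_eq_of_inertia A hq hA hσ a
    obtain ⟨b', hb', hrb⟩ := residue_eq_of_inertia A hq hA hσ b
    obtain ⟨h', hσP⟩ := smul_some_qbar σ hn
    have hlσ : EllLocal.IsLift (toModel A (σ • (Affine.Point.some _ _ hn : QPoint W))) a' b' := by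
      rw [hσP, toModel_some]
      simp only [← ha', ← hb']
      exact ⟨_, rfl⟩
    refine EllLocal.add_inE1 hlσ hl.neg (hra.symm ▸ hrb.symm ▸ hns) hra ?_
    rw [hrb, ← EllLocal.redCurve_negY, Affine.negY_negY]

end FLTAgent.EllP
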