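import Fermat.Agent.EllP.InertiaLift

/-!
# Minkowski's theorem and valuations of elements fixed by inertia

`eq_top_of_inertia_le`: a subgroup of `Gal(ℚ̄/ℚ)` containing the fixing subgroup of a number field
and all inertia groups is everything, as its fixed field would be unramified everywhere.
`exists_valuation_eq_zpow`: an element fixed by inertia at a place over `q` has as valuation an
integral power of that of `q`. Both rest on `exists_inertia_lift` and the fact that a prime is
unramified in the fixed field of its inertia group (`isUnramifiedAt_fixedField`).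
-/

set_option autoImplicit false

noncomputable section

open Polynomial
open scoped Pointwise NumberField

namespace FLTAgent.EllP

local notation "Qb" => AlgebraicClosure ℚ
local notation "OQ" => NumberField.RingOfIntegers (AlgebraicClosure ℚ)
local notation "GQ" => (AlgebraicClosure ℚ ≃ₐ[ℚ] AlgebraicClosure ℚ)

section FiniteLevel

variable {M : Type*} [Field M] [NumberField M] [IsGalois ℚ M]

/-- In a finite Galois extension of `ℚ`, a prime is unramified in the fixed field of any subgroup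
containing its inertia group. -/
theorem ramificationIdx_fixedField_eq_one (H : Subgroup (M ≃ₐ[ℚ] M)) (P : Ideal (𝓞 M))
    [P.IsMaximal] (hP : P.inertia (M ≃ₐ[ℚ] M) ≤ H) :
    (P.under (𝓞 (IntermediateField.fixedField H))).ramificationIdx ℤ = 1 := by
  set E := IntermediateField.fixedField H with hE
  have : (P.under ℤ).IsMaximal := Ideal.IsMaximal.under ℤ P
  have : Finite (ℤ ⧸ P.under ℤ) := by
    apply Ring.HasFiniteQuotients.finiteQuotient
    exact Ideal.IsMaximal.ne_bot_of_isIntegral_int _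
  have : Finite ((𝓞 E) ⧸ P.under (𝓞 E)) := by
    apply Ring.HasFiniteQuotients.finiteQuotient
    exact Ideal.IsMaximal.ne_bot_of_isIntegral_int _
  have : IsGaloisGroup (M ≃ₐ[ℚ] M) ℤ (𝓞 M) := .of_isFractionRing _ _ _ ℚ M
  have : IsGaloisGroup (M ≃ₐ[E] M) (𝓞 E) (𝓞 M) := .of_isFractionRing _ _ _ E M
  have h1 : Nat.card (P.inertia (M ≃ₐ[ℚ] M)) = P.ramificationIdx ℤ := by
    rw [Ideal.card_inertia_eq_ramificationIdxIn (P.under ℤ) P,
      Ideal.ramificationIdxIn_eq_ramificationIdx (P.under ℤ) P (M ≃ₐ[ℚ] M)]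
  have h2 : Nat.card (P.inertia (M ≃ₐ[E] M)) = P.ramificationIdx (𝓞 E) := by
    rw [Ideal.card_inertia_eq_ramificationIdxIn (P.under (𝓞 E)) P,
      Ideal.ramificationIdxIn_eq_ramificationIdx (P.under (𝓞 E)) P (M ≃ₐ[E] M)]
  have h3 : Nat.card (P.inertia (M ≃ₐ[E] M)) = Nat.card (P.inertia (M ≃ₐ[ℚ] M)) := by
    refine Nat.card_eq_of_bijective
      (fun σ => ⟨σ.1.restrictScalars ℚ, fun x => σ.2 x⟩) ⟨?_, ?_⟩
    · intro σ τ h
      exact Subtype.ext (AlgEquiv.ext fun x =>
        DFunLike.congr_fun (congrArg Subtype.val h) x)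
    · rintro ⟨σ, hσ⟩
      exact ⟨⟨AlgEquiv.ofRingEquiv (f := σ.toRingEquiv) (fun e => e.2 ⟨σ, hP hσ⟩), fun x => hσ x⟩,
        Subtype.ext (AlgEquiv.ext fun x => rfl)⟩
  have h4 := Ideal.ramificationIdx_tower (R := ℤ) (P.under (𝓞 E)) P
  rw [← h1, ← h2, h3] at h4
  exact (mul_eq_right₀ (Nat.card_pos (α := P.inertia (M ≃ₐ[ℚ] M))).ne').1 h4.symm

/-- A prime is unramified in the fixed field of any subgroup containing its inertia group. -/
theorem isUnramifiedAt_fixedField (H : Subgroup (M ≃ₐ[ℚ] M)) (P : Ideal (𝓞 M))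
    [P.IsMaximal] (hP : P.inertia (M ≃ₐ[ℚ] M) ≤ H) :
    Algebra.IsUnramifiedAt ℤ (P.under (𝓞 (IntermediateField.fixedField H))) := by
  have : ((P.under (𝓞 (IntermediateField.fixedField H))).under ℤ).IsMaximal :=
    Ideal.IsMaximal.under ℤ _
  have : Finite (ℤ ⧸ (P.under (𝓞 (IntermediateField.fixedField H))).under ℤ) := by
    apply Ring.HasFiniteQuotients.finiteQuotient
    exact Ideal.IsMaximal.ne_bot_of_isIntegral_int _
  exact Ideal.ramificationIdx_eq_one_iff.1 (ramificationIdx_fixedField_eq_one H P hP)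

end FiniteLevel

/-- The prime of `𝓞 L` below a place of `ℚ̄` is maximal. -/
theorem centre_under_isMaximal (L : IntermediateField ℚ Qb) {A : ValuationSubring Qb} {q : ℕ}
    (hq : q.Prime) (hA : A.LiesOverPrime q) : ((centre A).under (𝓞 L)).IsMaximal := by
  refine Ideal.isMaximal_of_isIntegral_of_isMaximal_comap (R := ℤ) _
    (Ideal.IsPrime.isMaximal inferInstance ?_)
  intro h
  have hmem : (q : ℤ) ∈ ((centre A).under (𝓞 L)).comap (algebraMap ℤ (𝓞 L)) := by
    simpa [Ideal.under_def] using natCast_mem_centre hA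
  rw [h, Ideal.mem_bot] at hmem
  exact hq.ne_zero (by simpa using hmem)

/-- The restriction of inertia to a finite Galois subextension contains the inertia group of the
prime below. -/
theorem inertia_under_le_map (L : IntermediateField ℚ Qb) [IsGalois ℚ L] {A : ValuationSubring Qb}
    {q : ℕ} (hq : q.Prime) (hA : A.LiesOverPrime q) (U : Subgroup GQ)
    (hU : A.inertiaSubgroupIn ℚ ≤ U) :
    ((centre A).under (𝓞 L)).inertia (L ≃ₐ[ℚ] L) ≤ U.map (AlgEquiv.restrictNormalHom L) := by
  intro τ hτ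
  obtain ⟨σ, hσ, hσx⟩ := exists_inertia_lift L (centre A) τ hτ
  refine ⟨σ, hU ((mem_inertiaSubgroupIn_iff hq hA).2 hσ), AlgEquiv.ext fun x => ?_⟩
  apply (algebraMap L Qb).injective
  exact (AlgEquiv.restrictNormal_commutes σ L x).trans (hσx x)

/-- **Minkowski**: a subgroup of `Gal(ℚ̄/ℚ)` which contains the fixing subgroup of a number field
and every inertia subgroup is the whole group. -/
theorem eq_top_of_inertia_le (U : Subgroup GQ) (F : IntermediateField ℚ Qb) [FiniteDimensional ℚ F]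
    (hF : F.fixingSubgroup ≤ U)
    (hI : ∀ q : ℕ, q.Prime → ∀ A : ValuationSubring Qb, A.LiesOverPrime q →
      A.inertiaSubgroupIn ℚ ≤ U) : U = ⊤ := by
  set L := IntermediateField.normalClosure ℚ F Qb with hL
  have : Normal ℚ L := normalClosure.normal ℚ _ Qb
  have : IsGalois ℚ L := ⟨⟩
  have : NumberField L := ⟨⟩
  set H := U.map (AlgEquiv.restrictNormalHom L) with hH
  set E := IntermediateField.fixedField H with hE
  have hker : ∀ g : GQ, AlgEquiv.restrictNormalHom L g = 1 → g ∈ U := by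
    intro g hg
    refine hF ?_
    rw [IntermediateField.mem_fixingSubgroup_iff]
    intro x hx
    have hxL : x ∈ L := IntermediateField.le_normalClosure F hx
    have h := AlgEquiv.restrictNormal_commutes g L ⟨x, hxL⟩
    change algebraMap L Qb (AlgEquiv.restrictNormalHom L g ⟨x, hxL⟩) = g x at h
    rw [hg] at h
    exact h.symm
  have hEtop : Module.finrank ℚ E = 1 := by
    by_contra hne
    obtain ⟨PE, hPE, hram⟩ := NumberField.exists_not_isUnramifiedAt_int (K := E) (𝒪 := 𝓞 E) hne
    obtain ⟨P, -, hPprime, hP⟩ := Ideal.exists_ideal_over_prime_of_isIntegral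
      (S := 𝓞 L) PE ⊥ (by simp [Ideal.comap_bot_of_injective _
        (FaithfulSMul.algebraMap_injective (𝓞 E) (𝓞 L))])
    obtain ⟨Q, -, hQprime, hQ⟩ := Ideal.exists_ideal_over_prime_of_isIntegral
      (S := OQ) P ⊥ (by simp [Ideal.comap_bot_of_injective _
        (FaithfulSMul.algebraMap_injective (𝓞 L) OQ)])
    obtain ⟨n, hn⟩ := IsPrincipalIdealRing.principal (Q.under ℤ)
    have hPEmax : PE.IsMaximal := hPE
    have hPmax : P.IsMaximal := Ideal.isMaximal_of_isIntegral_of_isMaximal_comap (R := 𝓞 E) P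
      (hP.symm ▸ hPE)
    have hQmax : Q.IsMaximal := Ideal.isMaximal_of_isIntegral_of_isMaximal_comap (R := 𝓞 L) Q
      (hQ.symm ▸ hPmax)
    have hn0 : n ≠ 0 := fun h0 => Ideal.IsMaximal.ne_bot_of_isIntegral_int Q
      (Ideal.eq_bot_of_comap_eq_bot (hn.trans (by simp [h0])))
    have hnp : Prime n := by
      rw [← Ideal.span_singleton_prime hn0, ← Ideal.submodule_span_eq, ← hn]; infer_instance
    have hqQ : (n.natAbs : OQ) ∈ Q := by
      have h : (n.natAbs : ℤ) ∈ Q.under ℤ := by
        rw [hn, Ideal.submodule_span_eq, Ideal.mem_span_singleton]; exact Int.dvd_natAbs.2 dvd_rfl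
      rw [Ideal.under_def, Ideal.mem_comap] at h
      rwa [← map_natCast (algebraMap ℤ OQ)]
    obtain ⟨A, hA, hAQ⟩ := exists_centre_eq Q (Int.prime_iff_natAbs_prime.1 hnp) hqQ
    have hle := inertia_under_le_map L (Int.prime_iff_natAbs_prime.1 hnp) hA U
      (hI _ (Int.prime_iff_natAbs_prime.1 hnp) A hA)
    rw [hAQ] at hle
    have hPQ : Q.under (𝓞 L) = P := hQ
    rw [hPQ] at hle
    obtain rfl : P.under (𝓞 E) = PE := hP
    exact hram (isUnramifiedAt_fixedField H P hle)
  have hHtop : H = ⊤ := by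
    have h := IntermediateField.finrank_fixedField_eq_card H
    rw [← hE] at h
    have h' := Module.finrank_mul_finrank ℚ E L
    rw [hEtop, one_mul, h, ← IsGalois.card_aut_eq_finrank ℚ L] at h'
    exact Subgroup.eq_top_of_card_eq _ h'
  refine eq_top_iff.2 fun g _ => ?_
  obtain ⟨u, hu, hug⟩ : AlgEquiv.restrictNormalHom L g ∈ H := hHtop ▸ Subgroup.mem_top _
  have h := hker (u⁻¹ * g) (by rw [map_mul, map_inv, hug, inv_mul_cancel])
  simpa using mul_mem hu h

/-- An element of `ℚ̄` fixed by inertia at a place over `q` has valuation an integral power of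
that of `q`. -/
theorem exists_valuation_eq_zpow {A : ValuationSubring Qb} {q : ℕ} (hq : q.Prime)
    (hA : A.LiesOverPrime q) {y : Qb} (hy0 : y ≠ 0)
    (hy : ∀ σ ∈ A.inertiaSubgroupIn ℚ, σ y = y) :
    ∃ k : ℤ, A.valuation y = A.valuation (q : Qb) ^ k := by
  have : FiniteDimensional ℚ (IntermediateField.adjoin ℚ {y}) :=
    IntermediateField.adjoin.finiteDimensional (Algebra.IsIntegral.isIntegral y)
  set L := IntermediateField.normalClosure ℚ (IntermediateField.adjoin ℚ {y}) Qb with hL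
  have : Normal ℚ L := normalClosure.normal ℚ _ Qb
  have : IsGalois ℚ L := ⟨⟩
  have : NumberField L := ⟨⟩
  set P := (centre A).under (𝓞 L) with hPdef
  have : P.IsMaximal := centre_under_isMaximal L hq hA
  set H := P.inertia (L ≃ₐ[ℚ] L)
  set E := IntermediateField.fixedField H with hE
  have hyL : y ∈ L :=
    IntermediateField.le_normalClosure _ (IntermediateField.mem_adjoin_simple_self ℚ y)
  have hyE : (⟨y, hyL⟩ : L) ∈ E := by
    rintro ⟨τ, hτ⟩
    obtain ⟨σ, hσ, hσx⟩ := exists_inertia_lift L (centre A) τ hτ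
    apply Subtype.ext
    exact (hσx ⟨y, hyL⟩).symm.trans (hy σ ((mem_inertiaSubgroupIn_iff hq hA).2 hσ))
  set PE := P.under (𝓞 E) with hPE
  have hunr : Algebra.IsUnramifiedAt ℤ PE := isUnramifiedAt_fixedField H P le_rfl
  let ι : 𝓞 E → Qb := fun a => (((a : E) : L) : Qb)
  have hιmem : ∀ a : 𝓞 E, a ∈ PE ↔ A.valuation (ι a) < 1 := by
    intro a
    rw [← ValuationSubring.mem_nonunits_iff]
    exact mem_centre (b := algebraMap (𝓞 L) OQ (algebraMap (𝓞 E) (𝓞 L) a))
  have hιint : ∀ a : 𝓞 E, A.valuation (ι a) ≤ 1 := fun a =>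
    (A.valuation_le_one_iff _).2
      (mem_of_isIntegral_int A (algebraMap (𝓞 L) OQ (algebraMap (𝓞 E) (𝓞 L) a)).2)
  have hunit : ∀ a : 𝓞 E, a ∉ PE → A.valuation (ι a) = 1 := fun a ha =>
    le_antisymm (hιint a) (not_lt.1 fun h => ha ((hιmem a).2 h))
  have hmul : ∀ a b : 𝓞 E, ι (a * b) = ι a * ι b := fun a b => by simp [ι]
  have hdiv : ∀ a ∈ PE, ∃ b : 𝓞 E, A.valuation (ι a) = A.valuation (q : Qb) * A.valuation (ι b) := by
    intro a ha
    have : PE.IsPrime := Ideal.IsPrime.comap _
    let := Localization.AtPrime.algebraOfLiesOver (PE.under ℤ) PE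
    have h := ((Algebra.isUnramifiedAt_iff_map_eq ℤ (PE.under ℤ) PE).1 hunr).2
    rw [IsScalarTower.algebraMap_eq ℤ (𝓞 E) (Localization.AtPrime PE), ← Ideal.map_map] at h
    have ha' : algebraMap (𝓞 E) (Localization.AtPrime PE) a ∈
        ((PE.under ℤ).map (algebraMap ℤ (𝓞 E))).map (algebraMap (𝓞 E) (Localization.AtPrime PE)) := by
      rw [h, ← Localization.AtPrime.map_eq_maximalIdeal]
      exact Ideal.mem_map_of_mem _ ha
    obtain ⟨⟨⟨x, hx⟩, s⟩, hxs⟩ := (IsLocalization.mem_map_algebraMap_iff PE.primeCompl _).1 ha'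
    have hqx : x ∈ Ideal.span {(q : 𝓞 E)} := by
      refine (Ideal.map_le_iff_le_comap.2 ?_) hx
      intro n hn
      have hn' : (n : Qb) ∈ A.nonunits := by
        rw [ValuationSubring.mem_nonunits_iff]
        have := (hιmem _).1 hn
        simpa [ι] using this
      obtain ⟨m, rfl⟩ := (intCast_mem_nonunits hq hA).1 hn'
      rw [Ideal.mem_comap, map_mul, Ideal.mem_span_singleton]
      exact ⟨algebraMap ℤ (𝓞 E) m, by simp⟩
    obtain ⟨b, rfl⟩ := Ideal.mem_span_singleton.1 hqx
    have heq : a * (s : 𝓞 E) = q * b := by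
      apply IsLocalization.injective (Localization.AtPrime PE) PE.primeCompl_le_nonZeroDivisors
      rw [map_mul]; exact hxs
    refine ⟨b, ?_⟩
    have h' := congrArg (fun z => A.valuation (ι z)) heq
    simp only [hmul, map_mul, hunit _ s.2, mul_one] at h'
    rw [h']
    simp [ι]
  have hq1 : A.valuation (q : Qb) < 1 := hA
  have hq0 : A.valuation (q : Qb) ≠ 0 := by simpa using hq.ne_zero
  have hpow : ∀ (n : ℕ) (a : 𝓞 E), A.valuation (q : Qb) ^ n ≤ A.valuation (ι a) →
      ∃ k : ℤ, A.valuation (ι a) = A.valuation (q : Qb) ^ k := by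
    intro n
    induction n with
    | zero => exact fun a ha => ⟨0, by simpa using le_antisymm (hιint a) (by simpa using ha)⟩
    | succ n ih =>
      intro a ha
      by_cases haP : a ∈ PE
      · obtain ⟨b, hb⟩ := hdiv a haP
        obtain ⟨k, hk⟩ := ih b (by
          rw [hb, pow_succ'] at ha
          exact le_of_mul_le_mul_left ha (pos_of_ne_zero hq0))
        exact ⟨k + 1, by rw [hb, hk, zpow_add₀ hq0, zpow_one, mul_comm]⟩
      · exact ⟨0, by simpa using hunit a haP⟩
  have hnonzero : ∀ a : 𝓞 E, a ≠ 0 →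
      ∃ k : ℤ, A.valuation (ι a) = A.valuation (q : Qb) ^ k := by
    intro a ha
    obtain ⟨m, hm0, hm⟩ : ∃ m : ℤ, m ≠ 0 ∧ (m : 𝓞 E) ∈ Ideal.span {a} :=
      ⟨(Ideal.absNorm (Ideal.span {a}) : ℤ), fun h =>
        (Ideal.absNorm_eq_zero_iff (I := Ideal.span {a})).not.2 (by simpa using ha) (Int.natCast_eq_zero.1 h),
        by simpa using Ideal.absNorm_mem (Ideal.span {a})⟩
    obtain ⟨b, hb⟩ := Ideal.mem_span_singleton.1 hm
    obtain ⟨v, r, hr, hmr⟩ := Nat.exists_eq_pow_mul_and_not_dvd (Int.natAbs_ne_zero.2 hm0) q hq.ne_one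
    refine hpow v a ?_
    have hval : A.valuation (m : Qb) = A.valuation (q : Qb) ^ v := by
      have hr' : A.valuation ((r : ℤ) : Qb) = 1 := by
        refine le_antisymm ((A.valuation_le_one_iff _).2 (intCast_mem A _)) (not_lt.1 fun h => hr ?_)
        exact Int.natCast_dvd_natCast.1 ((intCast_mem_nonunits hq hA).1 h)
      rcases Int.natAbs_eq m with hm' | hm' <;>
        (rw [hm', hmr]; push_cast; simp [map_mul, map_pow, Valuation.map_neg] at hr' ⊢; rw [hr', mul_one])
    calc A.valuation (q : Qb) ^ v = A.valuation (m : Qb) := hval.symm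
      _ = A.valuation (ι (a * b)) := by rw [← hb]; simp [ι]
      _ ≤ A.valuation (ι a) := by
        rw [hmul, map_mul]; exact mul_le_of_le_one_right zero_le (hιint b)
  obtain ⟨a, b, hb, hab⟩ := IsFractionRing.div_surjective (𝓞 E) (⟨⟨y, hyL⟩, hyE⟩ : E)
  have hb0 : b ≠ 0 := nonZeroDivisors.ne_zero hb
  have hy' : y = ι a / ι b := by
    have := congrArg (fun z : E => ((z : L) : Qb)) hab
    simpa [ι] using this.symm
  have ha0 : a ≠ 0 := fun h => hy0 (by simp [hy', h, ι])
  obtain ⟨ka, hka⟩ := hnonzero a ha0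
  obtain ⟨kb, hkb⟩ := hnonzero b hb0
  exact ⟨ka - kb, by rw [hy', map_div₀, hka, hkb, zpow_sub₀ hq0]⟩

end FLTAgent.EllP
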