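import Mathlib
import Fermat.Prelude.Def_FLTPrelim_FreyPackage
import Fermat.Prelude.Def_FLTPrelim_Modularity

/-!
# The integral Frey model is semistable

`freyCurveInt` maps to the Frey curve over `ℚ` (`frey_map_eq`), satisfies `256 Δ = (abc) ^ (2 p)`
(`frey_Δ_mul`) and has `c₄` equal to `A² + AB + B²` with `A = a ^ p`, `B = b ^ p` (`frey_c₄_eq`).
As `c₄` is odd and `a`, `b` are coprime, the model is semistable (`frey_isSemistableModel`).
-/

set_option autoImplicit false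

noncomputable section

namespace FLTAgent.EllP

open WeierstrassCurve

variable (P : FreyPackage)

theorem frey_b_even : (2 : ℤ) ∣ P.b := (ZMod.intCast_zmod_eq_zero_iff_dvd P.b 2).1 P.hb2

theorem frey_thirtytwo_dvd : (32 : ℤ) ∣ P.b ^ P.p :=
  (pow_dvd_pow (2 : ℤ) P.hp5).trans (pow_dvd_pow_of_dvd (frey_b_even P) _)

theorem frey_four_dvd : (4 : ℤ) ∣ P.b ^ P.p - 1 - P.a ^ P.p := by
  have h4 : (4 : ℤ) ∣ P.b ^ P.p := Dvd.dvd.trans (by norm_num) (frey_thirtytwo_dvd P)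
  have ha : (4 : ℤ) ∣ P.a ^ P.p + 1 := by
    refine (ZMod.intCast_zmod_eq_zero_iff_dvd _ 4).1 ?_
    push_cast
    rw [P.ha4, show (3 : ZMod 4) = -1 by decide, P.hp_odd.neg_one_pow]
    exact neg_add_cancel 1
  obtain ⟨x, hx⟩ := h4
  obtain ⟨y, hy⟩ := ha
  exact ⟨x - y, by linear_combination hx - hy⟩

theorem frey_a₂_mul : 4 * P.freyCurveInt.a₂ = P.b ^ P.p - 1 - P.a ^ P.p :=
  Int.mul_ediv_cancel' (frey_four_dvd P)

theorem frey_sixteen_dvd : (16 : ℤ) ∣ -(P.a ^ P.p) * P.b ^ P.p :=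
  (Dvd.dvd.trans (by norm_num) (frey_thirtytwo_dvd P)).mul_left _

theorem frey_a₄_mul : 16 * P.freyCurveInt.a₄ = -(P.a ^ P.p) * P.b ^ P.p :=
  Int.mul_ediv_cancel' (frey_sixteen_dvd P)

theorem frey_two_dvd_a₄ : (2 : ℤ) ∣ P.freyCurveInt.a₄ := by
  obtain ⟨m, hm⟩ := (frey_thirtytwo_dvd P).mul_left (-(P.a ^ P.p))
  exact ⟨m, by have := frey_a₄_mul P; omega⟩

/-- The integral model maps to the Frey curve over `ℚ`. -/
theorem frey_map_eq : P.freyCurveInt.map (Int.castRingHom ℚ) = P.freyCurve := by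
  have h2 : (P.freyCurveInt.a₂ : ℚ) = (P.b ^ P.p - 1 - P.a ^ P.p : ℚ) / 4 := by
    rw [eq_div_iff (by norm_num), mul_comm]
    exact_mod_cast frey_a₂_mul P
  have h4 : (P.freyCurveInt.a₄ : ℚ) = (-(P.a ^ P.p) * P.b ^ P.p : ℚ) / 16 := by
    rw [eq_div_iff (by norm_num), mul_comm]
    exact_mod_cast frey_a₄_mul P
  ext
  · simp [FreyPackage.freyCurveInt, FreyPackage.freyCurve]
  · simpa [FreyPackage.freyCurve] using h2
  · simp [FreyPackage.freyCurveInt, FreyPackage.freyCurve]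
  · simpa [FreyPackage.freyCurve] using h4
  · simp [FreyPackage.freyCurveInt, FreyPackage.freyCurve]

/-- The discriminant of the integral Frey model. -/
theorem frey_Δ_mul :
    256 * P.freyCurveInt.Δ = (P.a ^ P.p * P.b ^ P.p * P.c ^ P.p) ^ 2 := by
  have h2 := frey_a₂_mul P
  have h4 := frey_a₄_mul P
  have h1 : P.freyCurveInt.a₁ = 1 := rfl
  have h3 : P.freyCurveInt.a₃ = 0 := rfl
  have h6 : P.freyCurveInt.a₆ = 0 := rfl
  rw [← P.hFLT, WeierstrassCurve.Δ, b₂, b₄, b₆, b₈, h1, h3, h6]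
  generalize P.a ^ P.p = A at *
  generalize P.b ^ P.p = B at *
  linear_combination
    ((16 * P.freyCurveInt.a₄) ^ 2 * (1 + 4 * P.freyCurveInt.a₂ + B - A)) * h2 +
      ((B - A) ^ 2 * (16 * P.freyCurveInt.a₄ - A * B) -
        4 * ((16 * P.freyCurveInt.a₄) ^ 2 - 16 * P.freyCurveInt.a₄ * (A * B) + (A * B) ^ 2)) * h4

/-- The invariant `c₄` of the integral Frey model. -/
theorem frey_c₄_eq :
    P.freyCurveInt.c₄ = (P.a ^ P.p) ^ 2 + P.a ^ P.p * P.b ^ P.p + (P.b ^ P.p) ^ 2 := by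
  have h2 := frey_a₂_mul P
  have h4 := frey_a₄_mul P
  have h1 : P.freyCurveInt.a₁ = 1 := rfl
  have h3 : P.freyCurveInt.a₃ = 0 := rfl
  rw [WeierstrassCurve.c₄, b₂, b₄, h1, h3]
  linear_combination (1 + 4 * P.freyCurveInt.a₂ + P.b ^ P.p - P.a ^ P.p) * h2 - 3 * h4

theorem frey_Δ_ne_zero : P.freyCurveInt.Δ ≠ 0 := by
  intro h
  have := frey_Δ_mul P
  rw [h, mul_zero] at this
  have hne : (P.a ^ P.p * P.b ^ P.p * P.c ^ P.p) ^ 2 ≠ 0 :=
    pow_ne_zero _ (mul_ne_zero (mul_ne_zero (pow_ne_zero _ P.ha0) (pow_ne_zero _ P.hb0))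
      (pow_ne_zero _ P.hc0))
  exact hne this.symm

theorem frey_not_two_dvd_c₄ : ¬ (2 : ℤ) ∣ P.freyCurveInt.c₄ := by
  have h1 : P.freyCurveInt.a₁ = 1 := rfl
  have h3 : P.freyCurveInt.a₃ = 0 := rfl
  rw [WeierstrassCurve.c₄, b₂, b₄, h1, h3]
  intro h
  have : (2 : ℤ) ∣ 1 := by
    obtain ⟨m, hm⟩ := h
    refine ⟨m - (4 * P.freyCurveInt.a₂ + 8 * P.freyCurveInt.a₂ ^ 2) + 24 * P.freyCurveInt.a₄, ?_⟩
    linear_combination hm
  exact absurd this (by norm_num)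

/-- The integral Frey model is semistable at every prime. -/
theorem frey_isSemistableModel : P.freyCurveInt.IsSemistableModel := by
  intro q hq hΔ hc4
  rcases eq_or_ne q 2 with rfl | hq2
  · exact frey_not_two_dvd_c₄ P hc4
  have hqp : Prime (q : ℤ) := Nat.prime_iff_prime_int.1 hq
  have h : (q : ℤ) ∣ (P.a ^ P.p * P.b ^ P.p * P.c ^ P.p) ^ 2 :=
    frey_Δ_mul P ▸ hΔ.mul_left _
  rw [frey_c₄_eq] at hc4
  set A := P.a ^ P.p
  set B := P.b ^ P.p
  have hAB : (q : ℤ) ∣ A ∧ (q : ℤ) ∣ B := by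
    rcases hqp.dvd_or_dvd (hqp.dvd_of_dvd_pow h) with h | h
    · rcases hqp.dvd_or_dvd h with hA | hB
      · refine ⟨hA, hqp.dvd_of_dvd_pow (n := 2) ?_⟩
        have := dvd_sub hc4 (hA.mul_right (A + B))
        rwa [show A ^ 2 + A * B + B ^ 2 - A * (A + B) = B ^ 2 by ring] at this
      · refine ⟨hqp.dvd_of_dvd_pow (n := 2) ?_, hB⟩
        have := dvd_sub hc4 (hB.mul_right (A + B))
        rwa [show A ^ 2 + A * B + B ^ 2 - B * (A + B) = A ^ 2 by ring] at this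
    · rw [← P.hFLT] at h
      change (q : ℤ) ∣ A + B at h
      have hA : (q : ℤ) ∣ A := hqp.dvd_of_dvd_pow (n := 2) (by
        have := dvd_sub hc4 (h.mul_right B)
        rwa [show A ^ 2 + A * B + B ^ 2 - (A + B) * B = A ^ 2 by ring] at this)
      exact ⟨hA, by simpa using dvd_sub h hA⟩
  have hdvd : (q : ℤ) ∣ gcd P.a P.b :=
    dvd_gcd (hqp.dvd_of_dvd_pow hAB.1) (hqp.dvd_of_dvd_pow hAB.2)
  rw [P.hgcdab] at hdvd
  exact hqp.not_isUnit (isUnit_of_dvd_one hdvd)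

end FLTAgent.EllP
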