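import Mathlib
import Fermat.Prelude.Def_FLTPrelim_Ramification

/-!
# The centre of a place of `ℚ̄` on the ring of algebraic integers

An element of a valuation subring of `ℚ̄` over a prime `q` is a quotient of algebraic integers with
denominator outside the centre (`exists_num_den`, by stripping the low coefficients of an equation
of the element). Hence inertia can be read off from the centre (`mem_inertiaSubgroupIn_iff`), and
every prime of the algebraic integers containing `q` is the centre of a place over `q`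
(`exists_centre_eq`).
-/

set_option autoImplicit false

noncomputable section

open Polynomial
open scoped Pointwise NumberField

namespace FLTAgent.EllP

variable {L : Type*} [Field L]

/-- Every `ℤ`-integral element lies in every valuation subring. -/
theorem mem_of_isIntegral_int (A : ValuationSubring L) {x : L} (hx : IsIntegral ℤ x) : x ∈ A := by
  have : IsIntegral A x := hx.tower_top
  obtain ⟨y, hy⟩ := IsIntegrallyClosed.algebraMap_eq_of_integral this
  exact hy ▸ y.2

/-- An element contained in every valuation subring is `ℤ`-integral. -/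
theorem isIntegral_int_of_forall_mem {x : L} (hx : ∀ V : ValuationSubring L, x ∈ V) :
    IsIntegral ℤ x := by
  have h := iInf_valuationSubring_superset (K := L) (s := ∅)
  have hx' : x ∈ ⨅ V : {V : ValuationSubring L // (∅ : Set L) ⊆ V.toSubring}, V.1.toSubring := by
    rw [Subring.mem_iInf]; exact fun V => hx V.1
  rw [h] at hx'
  have hx'' : IsIntegral (Subring.closure (∅ : Set L)) x := hx'
  obtain ⟨f, hf, hfx⟩ := hx''
  have hle : ∀ r : Subring.closure (∅ : Set L), ∃ n : ℤ, (n : L) = r := by
    rintro ⟨r, hr⟩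
    rw [Subring.closure_empty] at hr
    obtain ⟨n, hn⟩ := Subring.mem_bot.1 hr
    exact ⟨n, hn⟩
  have hlift : f.map (Subring.closure (∅ : Set L)).subtype ∈ Polynomial.lifts (Int.castRingHom L) := by
    rw [Polynomial.lifts_iff_coeff_lifts]
    intro n
    obtain ⟨m, hm⟩ := hle (f.coeff n)
    exact ⟨m, by simpa [Polynomial.coeff_map] using hm⟩
  obtain ⟨g, hg, -, hgm⟩ := Polynomial.lifts_and_degree_eq_and_monic hlift (hf.map _)
  refine ⟨g, hgm, ?_⟩
  rw [← Polynomial.eval_map, show algebraMap ℤ L = Int.castRingHom L from rfl, hg,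
    Polynomial.eval_map]
  exact hfx

/-- The quotient polynomial after stripping the `j` lowest coefficients. -/
def stripLow (f : ℤ[X]) : ℕ → ℤ[X]
  | 0 => f
  | j + 1 => (stripLow f j).divX

theorem stripLow_coeff (f : ℤ[X]) (j i : ℕ) : (stripLow f j).coeff i = f.coeff (i + j) := by
  induction j generalizing i with
  | zero => rfl
  | succ j ih =>
    rw [stripLow, Polynomial.coeff_divX, ih]
    congr 1
    omega

theorem aeval_stripLow (f : ℤ[X]) (x : L) (j : ℕ) :
    aeval x (stripLow f j) = x * aeval x (stripLow f (j + 1)) + (f.coeff j : L) := by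
  conv_lhs => rw [← Polynomial.X_mul_divX_add (stripLow f j)]
  simp [stripLow, map_add, stripLow_coeff]

theorem stripLow_mem (f : ℤ[X]) {x : L} (hfx : aeval x f = 0) (V : ValuationSubring L) (j : ℕ) :
    aeval x (stripLow f j) ∈ V := by
  by_cases hx : x ∈ V
  · rw [Polynomial.aeval_eq_sum_range]
    refine sum_mem fun i _ => ?_
    rw [zsmul_eq_mul]
    exact mul_mem (intCast_mem V _) (pow_mem hx i)
  · have hx' : x⁻¹ ∈ V := (V.mem_or_inv_mem x).resolve_left hx
    have hx0 : x ≠ 0 := fun h => hx (h ▸ V.zero_mem)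
    induction j with
    | zero => simp [stripLow, hfx]
    | succ j ih =>
      have h : aeval x (stripLow f (j + 1)) = x⁻¹ * (aeval x (stripLow f j) - (f.coeff j : L)) := by
        rw [aeval_stripLow f x j]; field_simp; ring
      rw [h]
      exact mul_mem hx' (sub_mem ih (intCast_mem V _))

theorem stripLow_isIntegral (f : ℤ[X]) {x : L} (hfx : aeval x f = 0) (j : ℕ) :
    IsIntegral ℤ (aeval x (stripLow f j)) :=
  isIntegral_int_of_forall_mem fun V => stripLow_mem f hfx V j

theorem mul_stripLow_isIntegral (f : ℤ[X]) {x : L} (hfx : aeval x f = 0) (j : ℕ) :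
    IsIntegral ℤ (x * aeval x (stripLow f (j + 1))) := by
  have h := aeval_stripLow f x j
  have h' : x * aeval x (stripLow f (j + 1)) = aeval x (stripLow f j) - (f.coeff j : L) := by
    linear_combination -h
  rw [h']
  exact (stripLow_isIntegral f hfx j).sub isIntegral_algebraMap

theorem intCast_mem_nonunits {A : ValuationSubring L} {q : ℕ} (hq : q.Prime)
    (hA : (q : L) ∈ A.nonunits) {n : ℤ} : (n : L) ∈ A.nonunits ↔ (q : ℤ) ∣ n := by
  constructor
  · intro hn
    by_contra h
    have hco : IsCoprime (q : ℤ) n := by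
      rw [Int.isCoprime_iff_gcd_eq_one]
      rcases Nat.coprime_or_dvd_of_prime hq n.natAbs with h1 | h1
      · simpa [Int.gcd] using h1
      · exact absurd (Int.natCast_dvd.2 h1) h
    obtain ⟨u, v, huv⟩ := hco
    have h1 : (u : L) * (q : L) + (v : L) * (n : L) = 1 := by exact_mod_cast congrArg (Int.cast (R := L)) huv
    rw [ValuationSubring.mem_nonunits_iff] at hA hn
    have := A.valuation.map_one
    rw [← h1] at this
    refine (lt_irrefl (1 : A.ValueGroup)) ?_
    nth_rw 1 [← this]
    refine lt_of_le_of_lt (A.valuation.map_add _ _) (max_lt ?_ ?_) <;> rw [map_mul]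
    · exact mul_lt_one_of_nonneg_of_lt_one_right
        ((A.valuation_le_one_iff _).2 (intCast_mem A u)) zero_le hA
    · exact mul_lt_one_of_nonneg_of_lt_one_right
        ((A.valuation_le_one_iff _).2 (intCast_mem A v)) zero_le hn
  · rintro ⟨m, rfl⟩
    rw [ValuationSubring.mem_nonunits_iff] at hA ⊢
    push_cast
    rw [map_mul]
    exact mul_lt_one_of_nonneg_of_lt_one_left zero_le hA
      ((A.valuation_le_one_iff _).2 (intCast_mem A m))

/-- An algebraic element of a valuation subring with residue characteristic `q` is a quotient of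
algebraic integers with unit denominator. -/
theorem exists_integral_num_den [CharZero L] {A : ValuationSubring L} {q : ℕ} (hq : q.Prime)
    (hA : (q : L) ∈ A.nonunits) {x : L} (hx : x ∈ A) (halg : IsAlgebraic ℤ x) :
    ∃ s : L, IsIntegral ℤ s ∧ IsIntegral ℤ (x * s) ∧ s ∉ A.nonunits := by
  obtain ⟨f0, hf0, hf0x⟩ := halg
  set f := f0.primPart with hf
  have hfx : aeval x f = 0 := aeval_primPart_eq_zero hf0 hf0x
  have hprim : f.IsPrimitive := f0.isPrimitive_primPart
  by_contra hcon
  push Not at hcon
  have hb : ∀ j, aeval x (stripLow f j) ∈ A.nonunits := by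
    rintro (_ | j)
    · simp [stripLow, hfx]
    · exact hcon _ (stripLow_isIntegral f hfx (j + 1)) (mul_stripLow_isIntegral f hfx j)
  have hc : ∀ j, (f.coeff j : L) ∈ A.nonunits := by
    intro j
    have h' : (f.coeff j : L) = aeval x (stripLow f j) - x * aeval x (stripLow f (j + 1)) := by
      rw [aeval_stripLow f x j]; ring
    rw [h']
    refine sub_mem (hb j) ?_
    rw [ValuationSubring.mem_nonunits_iff, map_mul]
    exact mul_lt_one_of_nonneg_of_lt_one_right ((A.valuation_le_one_iff _).2 hx) zero_le
      ((ValuationSubring.mem_nonunits_iff A).1 (hb _))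
  have hdvd : C (q : ℤ) ∣ f := (C_dvd_iff_dvd_coeff _ _).2 fun j => (intCast_mem_nonunits hq hA).1 (hc j)
  have hu := hprim (q : ℤ) hdvd
  have := Int.natAbs_eq_iff.1 (Int.isUnit_iff_natAbs_eq.1 hu)
  have := hq.two_le
  omega

local notation "Qb" => AlgebraicClosure ℚ
local notation "OQ" => NumberField.RingOfIntegers (AlgebraicClosure ℚ)
local notation "GQ" => (AlgebraicClosure ℚ ≃ₐ[ℚ] AlgebraicClosure ℚ)

/-- The inclusion of the algebraic integers in a place of `ℚ̄`. -/
def intInclusion (A : ValuationSubring Qb) : OQ →+* A where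
  toFun b := ⟨(b : Qb), mem_of_isIntegral_int A b.2⟩
  map_one' := Subtype.ext (map_one _)
  map_mul' a b := Subtype.ext (map_mul _ a b)
  map_zero' := Subtype.ext (map_zero _)
  map_add' a b := Subtype.ext (map_add _ a b)

/-- The centre of a place of `ℚ̄` on the algebraic integers. -/
def centre (A : ValuationSubring Qb) : Ideal OQ :=
  (IsLocalRing.maximalIdeal A).comap (intInclusion A)

instance (A : ValuationSubring Qb) : (centre A).IsPrime := Ideal.IsPrime.comap _

theorem mem_centre {A : ValuationSubring Qb} {b : OQ} : b ∈ centre A ↔ (b : Qb) ∈ A.nonunits :=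
  (ValuationSubring.coe_mem_nonunits_iff (a := intInclusion A b)).symm

theorem natCast_mem_centre {A : ValuationSubring Qb} {q : ℕ} (hA : A.LiesOverPrime q) :
    (q : OQ) ∈ centre A := by
  have h : ((q : OQ) : Qb) = (q : Qb) := map_natCast (algebraMap OQ Qb) q
  rw [mem_centre, h]; exact hA

/-- `ℚ̄/ℚ` is algebraic (the instance is not found automatically over `ℚ`). -/
instance qbarIsAlgebraic : Algebra.IsAlgebraic ℚ Qb := AlgebraicClosure.isAlgebraic ℚ

/-- `ℚ̄/ℚ` is Galois. -/
instance qbarIsGalois : IsGalois ℚ Qb := by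
  have : IsAlgClosure ℚ Qb := ⟨inferInstance, inferInstance⟩
  exact ⟨⟩

theorem isAlgebraic_int_qbar (x : Qb) : IsAlgebraic ℤ x :=
  (IsFractionRing.isAlgebraic_iff ℤ ℚ Qb).2 (Algebra.IsAlgebraic.isAlgebraic x)

/-- An element of a place over `q` is a quotient of algebraic integers with denominator outside
the centre. -/
theorem exists_num_den {A : ValuationSubring Qb} {q : ℕ} (hq : q.Prime)
    (hA : A.LiesOverPrime q) {x : Qb} (hx : x ∈ A) :
    ∃ a s : OQ, s ∉ centre A ∧ x * (s : Qb) = (a : Qb) := by
  obtain ⟨s, hs, hxs, hsu⟩ := exists_integral_num_den hq hA hx (isAlgebraic_int_qbar x)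
  exact ⟨⟨x * s, hxs⟩, ⟨s, hs⟩, fun h => hsu (mem_centre.1 h), rfl⟩

theorem coe_smul_OQ {H : Type*} [Group H] [MulSemiringAction H Qb] (σ : H) (b : OQ) :
    ((σ • b : OQ) : Qb) = σ • (b : Qb) :=
  rfl

theorem smul_notMem_centre {A : ValuationSubring Qb} {σ : GQ}
    (hσ : σ ∈ (centre A).inertia GQ) {b : OQ} (hb : b ∉ centre A) : σ • b ∉ centre A := by
  intro h
  exact hb (by simpa using sub_mem h (hσ b))

theorem smul_sub_mem_nonunits {A : ValuationSubring Qb} {q : ℕ} (hq : q.Prime)
    (hA : A.LiesOverPrime q) {σ : GQ} (hσ : σ ∈ (centre A).inertia GQ) {x : Qb} (hx : x ∈ A) :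
    σ x - x ∈ A.nonunits := by
  obtain ⟨a, s, hs, hxs⟩ := exists_num_den hq hA hx
  have hs' := smul_notMem_centre hσ hs
  have key : (σ x - x) * ((σ • s : OQ) : Qb) = ((σ • a - a : OQ) : Qb) - x * ((σ • s - s : OQ) : Qb) := by
    have h1 : σ x * ((σ • s : OQ) : Qb) = ((σ • a : OQ) : Qb) := by
      rw [coe_smul_OQ, coe_smul_OQ, AlgEquiv.smul_def, AlgEquiv.smul_def, ← map_mul, hxs]
    push_cast [map_sub] at *
    linear_combination h1 - hxs
  rw [ValuationSubring.mem_nonunits_iff]
  have hv : A.valuation ((σ • s : OQ) : Qb) = 1 := by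
    refine le_antisymm ((A.valuation_le_one_iff _).2 (mem_of_isIntegral_int A (σ • s).2)) ?_
    by_contra h
    exact hs' (mem_centre.2 ((ValuationSubring.mem_nonunits_iff A).2 (not_le.1 h)))
  have := congrArg A.valuation key
  rw [map_mul, hv, mul_one] at this
  rw [this]
  refine lt_of_le_of_lt (A.valuation.map_sub _ _) (max_lt ?_ ?_)
  · exact (ValuationSubring.mem_nonunits_iff A).1 (mem_centre.1 (hσ a))
  · rw [map_mul]
    exact mul_lt_one_of_nonneg_of_lt_one_right ((A.valuation_le_one_iff _).2 hx) zero_le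
      ((ValuationSubring.mem_nonunits_iff A).1 (mem_centre.1 (hσ s)))

theorem map_mem_of_mem_inertia {A : ValuationSubring Qb} {q : ℕ} (hq : q.Prime)
    (hA : A.LiesOverPrime q) {σ : GQ} (hσ : σ ∈ (centre A).inertia GQ) {x : Qb} (hx : x ∈ A) :
    σ x ∈ A := by
  have := add_mem (ValuationSubring.nonunits_subset (smul_sub_mem_nonunits hq hA hσ hx)) hx
  simpa using this

theorem mem_decomposition_of_mem_inertia {A : ValuationSubring Qb} {q : ℕ} (hq : q.Prime)
    (hA : A.LiesOverPrime q) {σ : GQ} (hσ : σ ∈ (centre A).inertia GQ) :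
    σ ∈ A.decompositionSubgroup ℚ := by
  refine MulAction.mem_stabilizer_iff.2 (SetLike.ext fun x => ?_)
  rw [ValuationSubring.mem_pointwise_smul_iff_inv_smul_mem]
  constructor
  · intro h
    have := map_mem_of_mem_inertia hq hA hσ h
    rwa [← AlgEquiv.smul_def, smul_inv_smul] at this
  · intro h
    exact map_mem_of_mem_inertia hq hA (inv_mem hσ) h

theorem residue_smul_decomposition (A : ValuationSubring Qb) (g : A.decompositionSubgroup ℚ)
    (a : A) :
    g • (IsLocalRing.residue A a) = IsLocalRing.residue A (g • a) :=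
  rfl

/-- The inertia subgroup of a place is the inertia subgroup of its centre. -/
theorem mem_inertiaSubgroupIn_iff {A : ValuationSubring Qb} {q : ℕ} (hq : q.Prime)
    (hA : A.LiesOverPrime q) {σ : GQ} :
    σ ∈ A.inertiaSubgroupIn ℚ ↔ σ ∈ (centre A).inertia GQ := by
  constructor
  · rintro ⟨g, hg, rfl⟩ b
    have hg' : MulSemiringAction.toRingAut (A.decompositionSubgroup ℚ)
        (IsLocalRing.ResidueField A) g = 1 := hg
    have h := DFunLike.congr_fun hg' (IsLocalRing.residue A (intInclusion A b))
    simp only [MulSemiringAction.toRingAut_apply, MulSemiringAction.toRingEquiv_apply_apply,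
      residue_smul_decomposition, RingAut.one_apply] at h
    have h' : g • intInclusion A b - intInclusion A b ∈ IsLocalRing.maximalIdeal A := by
      rw [← Ideal.Quotient.eq_zero_iff_mem]
      change IsLocalRing.residue A _ = 0
      rw [map_sub, h, sub_self]
    rw [Submodule.mem_toAddSubgroup, mem_centre]
    exact ValuationSubring.coe_mem_nonunits_iff.2 h'
  · intro hσ
    refine ⟨⟨σ, mem_decomposition_of_mem_inertia hq hA hσ⟩, ?_, rfl⟩
    refine MonoidHom.mem_ker.2 (RingEquiv.ext fun r => ?_)
    obtain ⟨a, rfl⟩ := IsLocalRing.residue_surjective r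
    simp only [MulSemiringAction.toRingAut_apply, MulSemiringAction.toRingEquiv_apply_apply,
      residue_smul_decomposition, RingAut.one_apply]
    refine (Ideal.Quotient.eq).2 ?_
    rw [← ValuationSubring.coe_mem_nonunits_iff]
    exact smul_sub_mem_nonunits hq hA hσ a.2

/-- Every prime of the algebraic integers is the centre of a place. -/
theorem exists_centre_eq (Q : Ideal OQ) [Q.IsPrime] {q : ℕ} (hq : q.Prime) (hQ : (q : OQ) ∈ Q) :
    ∃ A : ValuationSubring Qb, A.LiesOverPrime q ∧ centre A = Q := by
  let B : Subring Qb := (integralClosure ℤ Qb).toSubring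
  let I : Ideal B := Q
  have hI : I ≠ ⊤ := Ideal.IsPrime.ne_top ‹Q.IsPrime›
  obtain ⟨A, -, hA⟩ := Ideal.image_subset_nonunits_valuationSubring (A := B) I hI
  have hle : Q ≤ centre A := fun b hb => mem_centre.2 (hA ⟨b, hb, rfl⟩)
  have hqA : A.LiesOverPrime q := by
    have h := mem_centre.1 (hle hQ)
    have h' : ((q : OQ) : Qb) = (q : Qb) := map_natCast (algebraMap OQ Qb) q
    rwa [h'] at h
  have hq0 : (q : OQ) ≠ 0 := fun h => hq.ne_zero <| by
    have := congrArg (fun z : OQ => (z : Qb)) h
    simpa using this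
  have : Algebra.IsIntegral ℤ OQ := inferInstance
  have hne : Q ≠ ⊥ := fun h => hq0 (by simpa [h] using hQ)
  have hmax : Q.IsMaximal := by
    refine Ideal.isMaximal_of_isIntegral_of_isMaximal_comap (R := ℤ) _ ?_
    refine Ideal.IsPrime.isMaximal inferInstance ?_
    intro h
    have : (q : ℤ) ∈ Ideal.comap (algebraMap ℤ OQ) Q := by simpa using hQ
    rw [h] at this
    exact hq.ne_zero (by simpa using this)
  exact ⟨A, hqA, (hmax.eq_of_le (Ideal.IsPrime.ne_top inferInstance) hle).symm⟩

end FLTAgent.EllP
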