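import Fermat.Agent.EllP.Reduce
import Fermat.Agent.EllP.Frey
import Fermat.Agent.EllP.Stable
import Fermat.Agent.EllLocal.Unramified

/-!
# Torsion and `E₀` at places of semistable reduction

For an integral model semistable at `q`, inertia at a place over `q` moves `p`-torsion into `E₀`
for odd `p` (`inertiaMovesIntoE0_of_semistable`), and if the reduction is multiplicative with
`v_q(Δ)` prime to the odd prime `p`, a rational `p`-torsion point lies in `E₀` (`fixed_mem_E0`).
Both are proved on the node normal form (`node_data`), which detects `E₀`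
(`mem_E0_of_vcPoint`).
-/

set_option autoImplicit false

noncomputable section

open WeierstrassCurve
open scoped WeierstrassCurve.Affine

namespace FLTAgent.EllP

open EllLocal in
/-- An integral change of variables with unit `u` does not turn a singular reduction into a
nonsingular one. -/
theorem mem_E0_of_vcPoint {K : Type*} [Field K] [DecidableEq K] {A : ValuationSubring K}
    {W₀ W₁ : WeierstrassCurve A} (C : VariableChange K)
    (hu : A.valuation (C.u : K) = 1) (hr : C.r ∈ A) (hs : C.s ∈ A) (ht : C.t ∈ A)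
    (hC : C • (genCurve A W₀) = genCurve A W₁) {P : (genCurve A W₀).Point}
    (hP : pointCongr (congrArg WeierstrassCurve.toAffine hC) (vcPoint (genCurve A W₀) C P) ∈
      E0 A W₁) : P ∈ E0 A W₀ := by
  by_contra hcon
  obtain ⟨a, b, ⟨hn, rfl⟩, hsing⟩ := not_mem_E0_iff.1 hcon
  have hu' : ((C.u⁻¹ : Kˣ) : K) ∈ A :=
    A.mem_of_valuation_le_one _ (by rw [Units.val_inv_eq_inv_val, map_inv₀, hu, inv_one])
  have huA : (C.u : K) ∈ A := A.mem_of_valuation_le_one _ hu.le
  let uA : Aˣ := ⟨⟨(C.u : K), huA⟩, ⟨_, hu'⟩, Subtype.ext C.u.mul_inv, Subtype.ext C.u.inv_mul⟩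
  let CA : VariableChange A := ⟨uA, ⟨C.r, hr⟩, ⟨C.s, hs⟩, ⟨C.t, ht⟩⟩
  have hCA : CA.map A.subtype = C := by
    refine VariableChange.ext (Units.ext rfl) rfl rfl rfl
  have hW : CA • W₀ = W₁ := by
    apply WeierstrassCurve.map_injective (f := A.subtype) Subtype.val_injective
    change (CA • W₀).map A.subtype = W₁.map A.subtype
    rw [← map_variableChange, hCA]
    exact hC
  set π := IsLocalRing.residue A
  set Cb : VariableChange (IsLocalRing.ResidueField A) := CA.map π
  have hred : Cb • (redCurve A W₀) = redCurve A W₁ := by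
    change Cb • W₀.map π = W₁.map π
    rw [map_variableChange, hW]
  rcases hP with h1 | ⟨a', b', ⟨hn', heq⟩, hns⟩
  · rw [vcPoint_some, pointCongr_some] at h1
    exact h1 (A.mul_mem _ _ (pow_mem hu' 2) (sub_mem a.2 hr))
  · rw [vcPoint_some, pointCongr_some, Affine.Point.some.injEq] at heq
    have ha : π a' = vcX Cb (π a) := by
      have : a' = (↑uA⁻¹ : A) ^ 2 * (a - ⟨C.r, hr⟩) := Subtype.ext heq.1.symm
      rw [this]
      simp [vcX, Cb, CA, VariableChange.map]
    have hb : π b' = vcY Cb (π a) (π b) := by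
      have : b' = (↑uA⁻¹ : A) ^ 3 * (b - ⟨C.s, hs⟩ * (a - ⟨C.r, hr⟩) - ⟨C.t, ht⟩) :=
        Subtype.ext heq.2.symm
      rw [this]
      simp [vcY, Cb, CA, VariableChange.map]
    have heq0 : (redCurve A W₀).Equation (π a) (π b) :=
      IsLift.redEquation (P := Affine.Point.some _ _ hn) ⟨hn, rfl⟩
    apply hsing
    refine ⟨heq0, ?_⟩
    by_contra hc
    simp only [not_or, ne_eq, not_not] at hc
    rcases hns.2 with h | h <;> apply h <;> rw [← hred, ha, hb]
    · rw [polynomialX_vc, hc.1, hc.2]; simp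
    · rw [polynomialY_vc, hc.2]; simp

local notation "Qb" => AlgebraicClosure ℚ
local notation "GQ" => (AlgebraicClosure ℚ ≃ₐ[ℚ] AlgebraicClosure ℚ)

variable {W : WeierstrassCurve ℤ} {A : ValuationSubring Qb} {q p : ℕ}

theorem residue_map_ne_zero (hq : q.Prime) (hA : A.LiesOverPrime q) {n : ℤ}
    (hn : ¬(q : ℤ) ∣ n) : IsLocalRing.residue A (Int.castRingHom A n) ≠ 0 := by
  rw [Ne, IsLocalRing.residue_eq_zero_iff, ← ValuationSubring.coe_mem_nonunits_iff]
  simpa [intCast_mem_nonunits hq hA] using hn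

theorem residue_map_eq_zero (hq : q.Prime) (hA : A.LiesOverPrime q) {n : ℤ}
    (hn : (q : ℤ) ∣ n) : IsLocalRing.residue A (Int.castRingHom A n) = 0 := by
  rw [IsLocalRing.residue_eq_zero_iff, ← ValuationSubring.coe_mem_nonunits_iff]
  simpa [intCast_mem_nonunits hq hA] using hn

theorem genCurve_map_fixed (σ : GQ) :
    (EllLocal.genCurve A (modelAt A W)).map (σ : Qb →+* Qb) = EllLocal.genCurve A (modelAt A W) := by
  change ((W.map (Int.castRingHom A)).map A.subtype).map _ = (W.map (Int.castRingHom A)).map A.subtype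
  have h1 := (W.map (Int.castRingHom A)).map_map (f := A.subtype) (g := (σ : Qb →+* Qb))
  have h2 := W.map_map (f := Int.castRingHom A) (g := A.subtype)
  have h3 := W.map_map (f := Int.castRingHom A) (g := (σ : Qb →+* Qb).comp A.subtype)
  rw [h1, h2, h3]
  congr 1
  exact RingHom.ext_int _ _

theorem isConjPoint_toModel (σ : GQ) (P : QPoint W) :
    EllLocal.IsConjPoint (σ : Qb →+* Qb) (toModel A P) (toModel A (σ • P)) := by
  cases P with
  | zero => exact Or.inl ⟨_root_.map_zero _, by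
      rw [show σ • (Affine.Point.zero : QPoint W) = 0 from rfl, _root_.map_zero]⟩
  | some x y h =>
    obtain ⟨h', he⟩ := smul_some_qbar σ h
    rw [he, toModel_some, toModel_some]
    exact Or.inr ⟨x, y, _, _, rfl, rfl⟩

theorem isConjPoint_pointCongr {K : Type*} [Field K] [DecidableEq K] {E E' : Affine K} (h : E = E')
    {σ : K →+* K} {P Q : E.Point} (hc : EllLocal.IsConjPoint σ P Q) :
    EllLocal.IsConjPoint σ (pointCongr h P) (pointCongr h Q) := by
  subst h; exact hc

/-- Data of the node normal form at a place of bad semistable reduction. -/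
theorem node_data (hq : q.Prime) (hA : A.LiesOverPrime q) (hΔ : W.Δ ≠ 0)
    (hqΔ : (q : ℤ) ∣ W.Δ) (hqc : ¬(q : ℤ) ∣ W.c₄) :
    ∃ (C : VariableChange Qb) (c : A)
      (_hC : C • EllLocal.genCurve A (modelAt A W) = EllLocal.genCurve A (EllLocal.nodeCurve c)),
      IsLocalRing.residue A c = 0 ∧ (c : Qb) ≠ 0 ∧
      A.valuation (c : Qb) = A.valuation (W.Δ : Qb) ∧
      A.valuation (C.u : Qb) = 1 ∧ C.r ∈ A ∧ C.s ∈ A ∧ C.t ∈ A ∧
      ∀ σ ∈ A.inertiaSubgroupIn ℚ, C.map ((σ : GQ) : Qb →+* Qb) = C ∧ σ (c : Qb) = c := by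
  obtain ⟨C, c, hC, h1, h2, h3, h4, h5, h6, h7, h8⟩ := EllLocal.exists_node_form (modelAt A W)
    (by rw [map_c₄]; exact residue_map_ne_zero hq hA hqc)
    (by rw [map_Δ]; exact residue_map_eq_zero hq hA hqΔ)
    (by
      rw [map_Δ]
      intro h
      have := congrArg (fun z : A => (z : Qb)) h
      exact hΔ (by simpa using this))
  refine ⟨C, c, hC, h1, h2, ?_, h4, h5, h6, h7,
    fun σ hσ => h8 _ (EllLocal.inertiaLike_of_mem hσ) (genCurve_map_fixed σ)⟩
  rw [h3, map_Δ]
  simp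

/-- **Inertia moves odd torsion into `E₀`** on a model that is semistable at `q`. -/
theorem inertiaMovesIntoE0_of_semistable (hq : q.Prime) (hA : A.LiesOverPrime q) (hΔ : W.Δ ≠ 0)
    (hss : (q : ℤ) ∣ W.Δ → ¬(q : ℤ) ∣ W.c₄) (hp : Odd p) : InertiaMovesIntoE0 W p A := by
  intro σ hσ P
  by_cases hqΔ : (q : ℤ) ∣ W.Δ
  swap
  · exact EllLocal.mem_E0_of_good (by rw [map_Δ]; exact residue_map_ne_zero hq hA hqΔ) _
  obtain ⟨C, c, hC, hc, hc0, -, hu, hr, hs, ht, hfix⟩ := node_data hq hA hΔ hqΔ (hss hqΔ)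
  obtain ⟨hσC, hσc⟩ := hfix σ hσ
  refine mem_E0_of_vcPoint C hu hr hs ht hC ?_
  change pointCongr _ (EllLocal.vcPoint _ C
    (toModel A (σ • (P : QPoint W) - (P : QPoint W)))) ∈ _
  rw [map_sub, map_sub, map_sub]
  have h0 : p • toModel A (P : QPoint W) = 0 := by
    have := P.2
    rw [Submodule.mem_torsionBy_iff, natCast_zsmul] at this
    rw [← map_nsmul, this, _root_.map_zero]
  refine EllLocal.sub_mem_E0_node hc hc0 (EllLocal.inertiaLike_of_mem hσ) hσc
    (isConjPoint_pointCongr _ ((isConjPoint_toModel σ _).vc hσC)) hp ?_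
  rw [← map_nsmul, ← map_nsmul, h0, _root_.map_zero, _root_.map_zero]

theorem exists_valuation_intCast (hq : q.Prime) (hA : A.LiesOverPrime q) {n : ℤ} (hn : n ≠ 0) :
    ∃ e : ℕ, A.valuation (n : Qb) = A.valuation (q : Qb) ^ e := by
  obtain ⟨e, r, hr, h⟩ :=
    Nat.exists_eq_pow_mul_and_not_dvd (Int.natAbs_ne_zero.2 hn) q hq.ne_one
  refine ⟨e, ?_⟩
  have hr' : A.valuation ((r : ℤ) : Qb) = 1 := by
    refine le_antisymm ((A.valuation_le_one_iff _).2 (intCast_mem A _)) (not_lt.1 fun h' => hr ?_)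
    exact Int.natCast_dvd_natCast.1 ((intCast_mem_nonunits hq hA).1 h')
  rcases Int.natAbs_eq n with hn' | hn' <;>
    (rw [hn', h]; push_cast; simp [map_mul, map_pow, Valuation.map_neg] at hr' ⊢; rw [hr', mul_one])

/-- A rational odd-prime torsion point lies in `E₀` at a multiplicative place `q` when
`v_q(Δ)` is prime to `p`. -/
theorem fixed_mem_E0 (hq : q.Prime) (hA : A.LiesOverPrime q) (hΔ : W.Δ ≠ 0)
    (hqΔ : (q : ℤ) ∣ W.Δ) (hqc : ¬(q : ℤ) ∣ W.c₄) (hp : p.Prime) (hp2 : p ≠ 2) {n : ℕ}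
    (hn : A.valuation (W.Δ : Qb) = A.valuation (q : Qb) ^ n) (hpn : ¬p ∣ n)
    (x : QTorsion W p) (hx : ∀ σ : GQ, σ • x = x) :
    toModel A (x : QPoint W) ∈ EllLocal.E0 A (modelAt A W) := by
  obtain ⟨C, c, hC, hc, hc0, hvc, hu, hr, hs, ht, hfix⟩ := node_data hq hA hΔ hqΔ hqc
  refine mem_E0_of_vcPoint C hu hr hs ht hC ?_
  by_contra hcon
  set R := pointCongr (congrArg WeierstrassCurve.toAffine hC)
    (EllLocal.vcPoint _ C (toModel A (x : QPoint W))) with hRdef
  have h0 : p • R = 0 := by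
    have := x.2
    rw [Submodule.mem_torsionBy_iff, natCast_zsmul] at this
    rw [hRdef, ← map_nsmul, ← map_nsmul, ← map_nsmul, this, _root_.map_zero, _root_.map_zero,
      _root_.map_zero]
  obtain ⟨a, b, hab, hReq, ha1, hkind, k, hk⟩ :=
    EllLocal.exists_zpow_of_torsion hc hc0 hcon (hp.odd_of_ne_two hp2) h0
  have hsq : A.valuation (c : Qb) < A.valuation a ^ 2 := by
    rcases hkind with h | h <;> exact h.1
  have ha0 : a ≠ 0 := by
    intro h
    simp [h] at hsq
  have hfixa : ∀ σ ∈ A.inertiaSubgroupIn ℚ, σ a = a := by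
    intro σ hσ
    have hx' : σ • (x : QPoint W) = (x : QPoint W) := congrArg Subtype.val (hx σ)
    have h := isConjPoint_pointCongr (congrArg WeierstrassCurve.toAffine hC)
      ((isConjPoint_toModel (A := A) σ (x : QPoint W)).vc (hfix σ hσ).1)
    rw [hx', ← hRdef, hReq] at h
    obtain ⟨h', he⟩ := h.eq_some
    exact ((Affine.Point.some.injEq ..).mp he).1.symm
  obtain ⟨m, hm⟩ := exists_valuation_eq_zpow hq hA ha0 hfixa
  set v := A.valuation
  have hq1 : v (q : Qb) < 1 := hA
  have hq0 : v (q : Qb) ≠ 0 := by simpa [v] using hq.ne_zero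
  have hinj := (zpow_right_strictAnti₀ (pos_of_ne_zero hq0) hq1)
  rw [hvc, hn, ← zpow_natCast (v (q : Qb)) n] at hk hsq
  rw [hm, ← zpow_natCast (v (q : Qb) ^ m), ← zpow_mul] at hk hsq
  rw [← zpow_mul] at hk
  rw [hm] at ha1
  have e1 : m * (p : ℤ) = (n : ℤ) * k := hinj.injective hk
  have e2 : m * 2 < (n : ℤ) := hinj.lt_iff_gt.1 hsq
  have e3 : 0 < m := hinj.lt_iff_gt.1 (by rwa [zpow_zero])
  have hpk : (p : ℤ) ∣ k := by
    refine ((Nat.prime_iff_prime_int.1 hp).dvd_or_dvd ⟨m, ?_⟩).resolve_left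
      (fun h => hpn (Int.natCast_dvd_natCast.1 h))
    linear_combination -e1
  obtain ⟨j, rfl⟩ := hpk
  have hpos : (0 : ℤ) < p := by exact_mod_cast hp.pos
  have e4 : m = (n : ℤ) * j := mul_right_cancel₀ hpos.ne' (by linear_combination e1)
  rw [e4] at e2 e3
  have hj : 0 < j := pos_of_mul_pos_right e3 (Int.natCast_nonneg n)
  nlinarith

end FLTAgent.EllP
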