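import Fermat.Agent.EllP.FreyLine
import Fermat.Agent.EllP.NodeBridge

/-!
# A reducible Frey representation has a cofixed line

The two local inputs of `frey_cofixed_of_local` hold for the Frey curve: the model is semistable,
and `v₂(Δ) = 2 p v₂(abc) - 8` is prime to `p` (`frey_valuation_Δ_two`). The conclusion is
`frey_reducible_cofixed`.
-/

set_option autoImplicit false

noncomputable section

open WeierstrassCurve WeierstrassCurve.Affine.Point
open scoped WeierstrassCurve.Affine

namespace FLTAgent.EllP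

local notation "Qb" => AlgebraicClosure ℚ
local notation "GQ" => (AlgebraicClosure ℚ ≃ₐ[ℚ] AlgebraicClosure ℚ)

/-- The `2`-adic valuation of the discriminant is prime to `p`. -/
theorem frey_valuation_Δ_two (P : FreyPackage) {A : ValuationSubring Qb}
    (hA : A.LiesOverPrime 2) :
    ∃ n : ℕ, (2 : ℤ) ∣ P.freyCurveInt.Δ ∧
      A.valuation (P.freyCurveInt.Δ : Qb) = A.valuation ((2 : ℕ) : Qb) ^ n ∧ ¬P.p ∣ n := by
  obtain ⟨n, hn⟩ := exists_valuation_intCast Nat.prime_two hA (frey_Δ_ne_zero P)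
  obtain ⟨e, he⟩ := exists_valuation_intCast Nat.prime_two hA P.habc0
  have h256 : (256 : ℤ) * P.freyCurveInt.Δ = (P.a * P.b * P.c) ^ (P.p * 2) := by
    rw [frey_Δ_mul, pow_mul]; ring
  have h2 := congrArg (fun z : ℤ => A.valuation (z : Qb)) h256
  simp only [Int.cast_mul, Int.cast_pow] at h2
  rw [map_mul, map_pow, show (((256 : ℤ)) : Qb) = ((2 : ℕ) : Qb) ^ 8 by norm_num, map_pow, hn,
    show A.valuation ((P.a : Qb) * P.b * P.c) = A.valuation ((2 : ℕ) : Qb) ^ e by
      rw [← he]; push_cast; rfl, ← pow_add, ← pow_mul] at h2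
  have hq1 : A.valuation ((2 : ℕ) : Qb) < 1 := hA
  have hq0 : A.valuation ((2 : ℕ) : Qb) ≠ 0 := by simp
  have heq : 8 + n = e * (P.p * 2) :=
    (pow_right_strictAnti₀ (pos_of_ne_zero hq0) hq1).injective h2
  have hpn : ¬P.p ∣ n := by
    intro h
    have h8 : P.p ∣ 8 + n := heq ▸ Dvd.dvd.mul_left (dvd_mul_right _ _) e
    have h' := P.pp.dvd_of_dvd_pow (show P.p ∣ 2 ^ 3 from (Nat.dvd_add_left h).1 h8)
    have := Nat.le_of_dvd (by norm_num) h'
    have := P.hp5
    omega
  refine ⟨n, (intCast_mem_nonunits Nat.prime_two hA).1 ?_, hn, hpn⟩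
  rw [ValuationSubring.mem_nonunits_iff, hn]
  exact pow_lt_one₀ zero_le hq1 fun h => hpn (h ▸ dvd_zero _)

/-- **Reducible implies cofixed line** for the Frey curve. -/
theorem frey_reducible_cofixed (P : FreyPackage)
    (hred : ¬ GaloisRepIsIrreducible (K := AlgebraicClosure ℚ) ℚ P.freyCurve P.p) :
    HasGaloisStableCofixedLine (K := AlgebraicClosure ℚ) ℚ P.freyCurve P.p := by
  have hp : P.p.Prime := P.pp
  have hp2 : P.p ≠ 2 := by have := P.hp5; omega
  refine frey_cofixed_of_local P (fun q hq A hA => inertiaMovesIntoE0_of_semistable hq hA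
    (frey_Δ_ne_zero P) (frey_isSemistableModel P q hq) P.hp_odd) (fun A hA x hx => ?_) hred
  obtain ⟨n, h2, hn, hpn⟩ := frey_valuation_Δ_two P hA
  exact fixed_mem_E0 Nat.prime_two hA (frey_Δ_ne_zero P) h2 (frey_not_two_dvd_c₄ P) hp hp2 hn hpn x hx

end FLTAgent.EllP
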