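import Fermat.Agent.EllP.FreyTwo
import Fermat.Prelude.Def_FLTPrelim_CofixedLine

/-!
# A reducible Frey representation has a cofixed line, given two local inputs

`frey_cofixed_of_local`: assume that inertia moves `E[p]` into `E₀` at every place and that
rational `p`-torsion lies in `E₀` at `2`. A Galois-stable line of the Frey curve is pointwise fixed
or has fixed quotient; the first is excluded at `2`, so reducibility gives a Galois-stable line
with fixed quotient.
-/

set_option autoImplicit false

noncomputable section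

open Polynomial WeierstrassCurve WeierstrassCurve.Affine.Point
open scoped WeierstrassCurve.Affine Pointwise

namespace FLTAgent.EllP

local notation "Qb" => AlgebraicClosure ℚ
local notation "GQ" => (AlgebraicClosure ℚ ≃ₐ[ℚ] AlgebraicClosure ℚ)

/-- Reducible plus the two local inputs gives a cofixed line. -/
theorem frey_cofixed_of_local (P : FreyPackage)
    (hmove : ∀ q : ℕ, q.Prime → ∀ A : ValuationSubring Qb, A.LiesOverPrime q →
      InertiaMovesIntoE0 P.freyCurveInt P.p A)
    (hrat : ∀ A : ValuationSubring Qb, A.LiesOverPrime 2 →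
      ∀ x : QTorsion P.freyCurveInt P.p, (∀ σ : GQ, σ • x = x) →
        toModel A (x : QPoint P.freyCurveInt) ∈ EllLocal.E0 A (modelAt A P.freyCurveInt))
    (hred : ¬ GaloisRepIsIrreducible (K := AlgebraicClosure ℚ) ℚ P.freyCurve P.p) :
    HasGaloisStableCofixedLine (K := AlgebraicClosure ℚ) ℚ P.freyCurve P.p := by
  have hp : P.p.Prime := P.pp
  have : Fact P.p.Prime := ⟨hp⟩
  have hp5 := P.hp5
  rw [← frey_map_eq P] at hred ⊢
  have : (P.freyCurveInt.map (Int.castRingHom ℚ)).IsElliptic :=
    EllTorsion.isElliptic_map_rat (frey_Δ_ne_zero P)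
  set W : WeierstrassCurve ℚ := P.freyCurveInt.map (Int.castRingHom ℚ)
  have hV : Nat.card (QTorsion P.freyCurveInt P.p) = P.p ^ 2 :=
    EllTorsion.natCard_torsionBy_rat W P.p hp.ne_zero
  obtain ⟨F, hFfin, hF⟩ := EllTorsion.exists_finiteLevel_smul_eq W P.p hp.ne_zero
  have hnt : Nontrivial (QTorsion P.freyCurveInt P.p) :=
    EllTorsion.nontrivial_torsionBy_rat W P.p hp.two_le
  have hN : ∃ N : Submodule (ZMod P.p) (QTorsion P.freyCurveInt P.p),
      IsGaloisStable ℚ N ∧ N ≠ ⊥ ∧ N ≠ ⊤ := by
    by_contra hcon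
    refine hred ⟨hnt, fun N hN => ?_⟩
    by_contra h
    push Not at h
    exact hcon ⟨N, hN, h⟩
  obtain ⟨N, hstab, hbot, htop⟩ := hN
  have hcard : Nat.card N = P.p := ((submodule_card_cases hV N).resolve_left hbot).resolve_right htop
  rcases line_fixed_or_quotient_fixed hV (frey_Δ_ne_zero P) (by omega) hmove F
    (fun σ hσ => hF σ ((IntermediateField.mem_fixingSubgroup_iff F σ).1 hσ)) N hcard hstab
    with h | h
  · exfalso
    obtain ⟨A, hA⟩ := GalCommon.exists_liesOverPrime Nat.prime_two
    obtain ⟨x, hx, hx0⟩ := N.exists_mem_ne_zero_of_ne_bot hbot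
    exact hx0 (frey_no_fixed_point_of_inE0 P A hA (hrat A hA) x fun σ => h σ x hx)
  · exact ⟨N, hstab, hbot, htop, h⟩

end FLTAgent.EllP
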