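import Fermat.Agent.EllP.Stable
import Fermat.Agent.EllP.Frey

/-!
# The Frey curve has no rational `p`-torsion point in `E₀` at `2`

If every rational `p`-torsion point lies in `E₀` at `2`, then it is zero
(`frey_no_fixed_point_of_inE0`): over `𝔽₂` the nonsingular part of the reduced Frey curve has at
most two affine rational points, so `x`, `2x`, `3x` cannot have pairwise different reductions,
while reduction is injective on prime-to-`2` torsion.
-/

set_option autoImplicit false

noncomputable section

open Polynomial WeierstrassCurve WeierstrassCurve.Affine.Point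
open scoped WeierstrassCurve.Affine Pointwise

namespace FLTAgent.EllP

local notation "Qb" => AlgebraicClosure ℚ
local notation "GQ" => (AlgebraicClosure ℚ ≃ₐ[ℚ] AlgebraicClosure ℚ)

theorem exists_rat_of_fixed {x : Qb} (h : ∀ σ : GQ, σ x = x) : ∃ r : ℚ, (r : Qb) = x := by
  obtain ⟨r, hr⟩ := IntermediateField.mem_bot.1
    ((InfiniteGalois.mem_bot_iff_fixed x).2 h)
  exact ⟨r, (eq_ratCast (algebraMap ℚ Qb) r).symm.trans hr⟩

/-- A rational element of a place over `2` reduces to `0` or `1`. -/
theorem residue_eq_zero_or_one {A : ValuationSubring Qb} (hA : A.LiesOverPrime 2) (a : A)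
    (h : ∀ σ : GQ, σ (a : Qb) = a) :
    IsLocalRing.residue A a = 0 ∨ IsLocalRing.residue A a = 1 := by
  obtain ⟨r, hr⟩ := exists_rat_of_fixed h
  have hmul : a * ((r.den : ℤ) : A) = (r.num : A) := by
    apply Subtype.ext
    push_cast
    rw [← hr]
    exact_mod_cast r.mul_den_eq_num
  have hiff : ∀ n : ℤ, IsLocalRing.residue A (n : A) = 0 ↔ (2 : ℤ) ∣ n := by
    intro n
    rw [IsLocalRing.residue_eq_zero_iff, ← ValuationSubring.coe_mem_nonunits_iff]
    simpa using intCast_mem_nonunits Nat.prime_two hA (n := n)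
  have hodd : ∀ n : ℤ, IsLocalRing.residue A (n : A) = 0 ∨ IsLocalRing.residue A (n : A) = 1 := by
    intro n
    rcases Int.emod_two_eq_zero_or_one n with h' | h'
    · exact Or.inl ((hiff n).2 (Int.dvd_of_emod_eq_zero h'))
    · right
      have := (hiff (n - 1)).2 (by omega)
      rwa [Int.cast_sub, Int.cast_one, map_sub, map_one, sub_eq_zero] at this
  have hres := congrArg (IsLocalRing.residue A) hmul
  rw [map_mul] at hres
  rcases hodd (r.den : ℤ) with hd | hd
  · exfalso
    rw [hd, mul_zero] at hres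
    have h2n := Int.natAbs_dvd_natAbs.2 ((hiff r.num).1 hres.symm)
    have h2d := Int.natCast_dvd_natCast.1 ((hiff (r.den : ℤ)).1 hd : ((2 : ℕ) : ℤ) ∣ _)
    exact absurd (Nat.eq_one_of_dvd_coprimes r.reduced h2n h2d) (by norm_num)
  · rw [hd, mul_one] at hres
    exact hres ▸ hodd r.num

variable (P : FreyPackage)

/-- The `F₂`-rational nonsingular points of the reduced Frey curve have `x = 1`. -/
theorem frey_red_x_eq_one {A : ValuationSubring Qb} (hA : A.LiesOverPrime 2)
    {r s : IsLocalRing.ResidueField A} (hr : r = 0 ∨ r = 1) (hs : s = 0 ∨ s = 1)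
    (hns : (EllLocal.redCurve A (modelAt A P.freyCurveInt)).Nonsingular r s) : r = 1 := by
  refine hr.resolve_left fun hr0 => ?_
  subst hr0
  have hcast : ∀ n : ℤ, IsLocalRing.residue A (Int.castRingHom A n) = (n : IsLocalRing.ResidueField A) :=
    fun n => map_intCast _ n
  have h4 : (P.freyCurveInt.a₄ : IsLocalRing.ResidueField A) = 0 := by
    rw [← map_intCast (IsLocalRing.residue A), IsLocalRing.residue_eq_zero_iff,
      ← ValuationSubring.coe_mem_nonunits_iff]
    simpa using (intCast_mem_nonunits Nat.prime_two hA).2 (frey_two_dvd_a₄ P)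
  have h1 : P.freyCurveInt.a₁ = 1 := rfl
  have h3 : P.freyCurveInt.a₃ = 0 := rfl
  have h6 : P.freyCurveInt.a₆ = 0 := rfl
  obtain ⟨heq, hne⟩ := hns
  rw [Affine.equation_iff] at heq
  simp only [map_a₁, map_a₂, map_a₃, map_a₄, map_a₆, hcast, h1, h3, h6, h4, Int.cast_one,
    Int.cast_zero, mul_zero, zero_mul, add_zero, zero_pow, ne_eq, OfNat.ofNat_ne_zero,
    not_false_eq_true] at heq
  have hs0 : s = 0 := by simpa using heq
  subst hs0
  simp [Affine.evalEval_polynomialX, Affine.evalEval_polynomialY, h1, h3, h4] at hne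

/-- If every rational `p`-torsion point lies in `E₀` at `2`, there is none but `0`. -/
theorem frey_no_fixed_point_of_inE0 (A : ValuationSubring Qb) (hA : A.LiesOverPrime 2)
    (hE0 : ∀ x : QTorsion P.freyCurveInt P.p, (∀ σ : GQ, σ • x = x) →
      toModel A (x : QPoint P.freyCurveInt) ∈ EllLocal.E0 A (modelAt A P.freyCurveInt))
    (x : QTorsion P.freyCurveInt P.p) (hx : ∀ σ : GQ, σ • x = x) : x = 0 := by
  classical
  by_contra hx0
  have hp : P.p.Prime := P.pp
  have : Fact P.p.Prime := ⟨hp⟩
  have hp5 := P.hp5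
  have hres : (P.p : IsLocalRing.ResidueField A) ≠ 0 :=
    natCast_residue_ne_zero Nat.prime_two hA hp (by omega)
  have hlift : ∀ k : Fin 3, ∃ a b : A,
      EllLocal.IsLift (toModel A ((((k : ℕ) + 1) • x : QTorsion P.freyCurveInt P.p) : QPoint P.freyCurveInt)) a b ∧
      (EllLocal.redCurve A (modelAt A P.freyCurveInt)).Nonsingular (IsLocalRing.residue A a)
        (IsLocalRing.residue A b) ∧ IsLocalRing.residue A a = 1 ∧
        (IsLocalRing.residue A b = 0 ∨ IsLocalRing.residue A b = 1) := by
    intro k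
    set y : QTorsion P.freyCurveInt P.p := ((k : ℕ) + 1) • x with hy
    have hyfix : ∀ σ : GQ, σ • y = y := fun σ => by
      rw [hy, ← DistribSMul.toAddMonoidHom_apply, map_nsmul, DistribSMul.toAddMonoidHom_apply, hx]
    have hy0 : y ≠ 0 := by
      intro h
      have h' : (((k : ℕ) + 1 : ℕ) : ZMod P.p) • x = 0 := by rw [Nat.cast_smul_eq_nsmul]; exact h
      rcases smul_eq_zero.1 h' with h'' | h''
      · rw [ZMod.natCast_eq_zero_iff] at h''
        have := Nat.le_of_dvd (by omega) h''
        omega
      · exact hx0 h''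
    rcases hE0 y hyfix with h1 | ⟨a, b, hl, hns⟩
    · exfalso
      have h0 : P.p • toModel A (y : QPoint P.freyCurveInt) = 0 := by
        have := y.2
        rw [Submodule.mem_torsionBy_iff, natCast_zsmul] at this
        rw [← map_nsmul, this, _root_.map_zero]
      exact hy0 (Subtype.ext ((toModel A).injective
        ((EllLocal.eq_zero_of_nsmul_eq_zero h1 hres h0).trans (_root_.map_zero _).symm)))
    · obtain ⟨hn, hyeq⟩ := exists_lift_of_not_formal A hl
      have hfix : ∀ σ : GQ, σ (a : Qb) = a ∧ σ (b : Qb) = b := by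
        intro σ
        have h := congrArg Subtype.val (hyfix σ)
        change σ • (y : QPoint P.freyCurveInt) = (y : QPoint P.freyCurveInt) at h
        obtain ⟨h', hσ⟩ := smul_some_qbar σ hn
        rw [hyeq, hσ] at h
        simpa using h
      have hb := residue_eq_zero_or_one hA b fun σ => (hfix σ).2
      exact ⟨a, b, hl, hns, frey_red_x_eq_one P hA
        (residue_eq_zero_or_one hA a fun σ => (hfix σ).1) hb hns, hb⟩
  choose a b hl hns ha hb using hlift
  obtain ⟨i, j, hij, heq⟩ := Fintype.exists_ne_map_eq_of_card_lt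
    (fun k => decide (IsLocalRing.residue A (b k) = 0)) (by simp)
  have hbeq : IsLocalRing.residue A (b i) = IsLocalRing.residue A (b j) := by
    simp only [decide_eq_decide] at heq
    rcases hb i with h | h <;> rcases hb j with h' | h'
    · rw [h, h']
    · exact absurd (h' ▸ heq.1 h) one_ne_zero
    · exact absurd (h ▸ heq.2 h') one_ne_zero
    · rw [h, h']
  have hp0 : ∀ k : Fin 3, P.p • toModel A
      ((((k : ℕ) + 1) • x : QTorsion P.freyCurveInt P.p) : QPoint P.freyCurveInt) = 0 := by
    intro k
    have := (((k : ℕ) + 1) • x : QTorsion P.freyCurveInt P.p).2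
    rw [Submodule.mem_torsionBy_iff, natCast_zsmul] at this
    rw [← map_nsmul, this, _root_.map_zero]
  have h := EllLocal.eq_of_same_reduction (hl i) (hl j) (hns i) ((ha i).trans (ha j).symm) hbeq
    hres (hp0 i) (hp0 j)
  have h' : ((((i : ℕ) + 1 : ℕ) : ZMod P.p)) • x = (((j : ℕ) + 1 : ℕ) : ZMod P.p) • x := by
    rw [Nat.cast_smul_eq_nsmul, Nat.cast_smul_eq_nsmul]
    exact Subtype.ext ((toModel A).injective h)
  rw [← sub_eq_zero, ← sub_smul] at h'
  rcases smul_eq_zero.1 h' with h'' | h''
  · rw [sub_eq_zero, ZMod.natCast_eq_natCast_iff'] at h''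
    rw [Nat.mod_eq_of_lt (by omega), Nat.mod_eq_of_lt (by omega)] at h''
    exact hij (Fin.ext (by omega))
  · exact hx0 h''

end FLTAgent.EllP
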