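import Fermat.Agent.EllP.Centre

/-!
# Inertia surjects onto the inertia groups of finite Galois subextensions

For a Galois subextension `L` of `ℚ̄/ℚ` and a prime `Q` of the algebraic integers, every element of
the inertia group of `Q ∩ L` extends to an element of the inertia group of `Q`
(`exists_inertia_lift`): a lift of it is corrected by `Gal(ℚ̄/L)`, first to fix `Q` and then to act
trivially on the residue field.
-/

set_option autoImplicit false

noncomputable section

open Polynomial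
open scoped Pointwise NumberField

namespace FLTAgent.EllP

local notation "Qb" => AlgebraicClosure ℚ
local notation "OQ" => NumberField.RingOfIntegers (AlgebraicClosure ℚ)
local notation "GQ" => (AlgebraicClosure ℚ ≃ₐ[ℚ] AlgebraicClosure ℚ)

variable (L : IntermediateField ℚ Qb)

local notation "HL" => (AlgebraicClosure ℚ ≃ₐ[L] AlgebraicClosure ℚ)
local notation "OL" => NumberField.RingOfIntegers L

instance integralInvariant : Algebra.IsInvariant OL OQ HL := by
  refine ⟨fun b hb => ?_⟩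
  have h : (b : Qb) ∈ (⊥ : IntermediateField L Qb) := by
    rw [InfiniteGalois.mem_bot_iff_fixed]
    exact fun σ => congrArg (fun z : OQ => (z : Qb)) (hb σ)
  obtain ⟨x, hx⟩ := IntermediateField.mem_bot.1 h
  have hint : IsIntegral ℤ x := by
    rw [← isIntegral_algebraMap_iff (A := L) (B := Qb) (algebraMap L Qb).injective, hx]
    exact b.2
  exact ⟨⟨x, hint⟩, NumberField.RingOfIntegers.ext hx⟩

instance smulCommIntegral : SMulCommClass HL OL OQ := by
  refine ⟨fun σ a b => NumberField.RingOfIntegers.ext ?_⟩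
  change σ (algebraMap L Qb a * (b : Qb)) = algebraMap L Qb a * σ (b : Qb)
  rw [map_mul, AlgEquiv.commutes]

theorem coe_algebraMap_OL (a : OL) : ((algebraMap OL OQ a : OQ) : Qb) = ((a : L) : Qb) :=
  rfl

theorem coe_smul_OL (τ : L ≃ₐ[ℚ] L) (a : OL) : ((τ • a : OL) : L) = τ (a : L) :=
  rfl

theorem continuousSMul_integral [TopologicalSpace OQ] [DiscreteTopology OQ] :
    ContinuousSMul HL OQ := by
  rw [continuousSMul_iff_stabilizer_isOpen]
  intro b
  convert stabilizer_isOpen_of_isIntegral (K := L) (b : Qb) using 1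
  ext σ
  simp only [SetLike.mem_coe, MulAction.mem_stabilizer_iff]
  exact ⟨fun h => congrArg (fun z : OQ => (z : Qb)) h, fun h => NumberField.RingOfIntegers.ext h⟩

/-- Inertia of a place surjects onto inertia of the prime below it in a finite Galois
subextension. -/
theorem exists_inertia_lift [IsGalois ℚ L] (Q : Ideal OQ) [Q.IsPrime]
    (τ : L ≃ₐ[ℚ] L) (hτ : τ ∈ (Q.under OL).inertia (L ≃ₐ[ℚ] L)) :
    ∃ σ : GQ, σ ∈ Q.inertia GQ ∧ ∀ x : L, σ (x : Qb) = ((τ x : L) : Qb) := by
  let : TopologicalSpace OQ := ⊥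
  have : DiscreteTopology OQ := ⟨rfl⟩
  have := continuousSMul_integral L
  set σ0 : GQ := τ.liftNormal Qb with hσ0
  have hσ0L : ∀ (ρ : GQ) (ρ' : L ≃ₐ[ℚ] L), (∀ x : L, ρ (x : Qb) = ((ρ' x : L) : Qb)) →
      ∀ a : OL, ρ • algebraMap OL OQ a = algebraMap OL OQ (ρ' • a) := fun ρ ρ' h a =>
    NumberField.RingOfIntegers.ext (h a)
  have hσ0x : ∀ x : L, σ0 (x : Qb) = ((τ x : L) : Qb) := fun x => τ.liftNormal_commutes Qb x
  have hσ0inv : ∀ x : L, σ0⁻¹ (x : Qb) = ((τ⁻¹ x : L) : Qb) := by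
    intro x
    apply σ0.injective
    rw [hσ0x, ← AlgEquiv.mul_apply, mul_inv_cancel, AlgEquiv.one_apply, ← AlgEquiv.mul_apply,
      mul_inv_cancel, AlgEquiv.one_apply]
  have hQ0 : (σ0 • Q).under OL = Q.under OL := by
    ext a
    rw [Ideal.under_def, Ideal.mem_comap, Ideal.mem_pointwise_smul_iff_inv_smul_mem,
      hσ0L _ _ hσ0inv a]
    have h := inv_mem hτ a
    constructor
    · intro h1
      simpa using sub_mem (h1 : τ⁻¹ • a ∈ Q.under OL) h
    · intro h1
      have := add_mem h (h1 : a ∈ Q.under OL)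
      simpa using this
  obtain ⟨h, hh⟩ := Algebra.IsInvariant.exists_smul_of_under_eq_of_profinite
    (A := OL) (G := HL) (σ0 • Q) Q hQ0
  set σ1 : GQ := h.restrictScalars ℚ * σ0 with hσ1
  have hσ1Q : σ1 • Q = Q := by
    rw [hσ1, mul_smul]
    exact hh.symm
  have hσ1x : ∀ x : L, σ1 (x : Qb) = ((τ x : L) : Qb) := by
    intro x
    rw [hσ1, AlgEquiv.mul_apply, hσ0x]
    exact h.commutes (τ x)
  let φ : (OQ ⧸ Q) ≃ₐ[OL ⧸ Q.under OL] (OQ ⧸ Q) :=
    AlgEquiv.ofRingEquiv (f := Ideal.quotientEquiv Q Q (MulSemiringAction.toRingEquiv GQ OQ σ1)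
      hσ1Q.symm) (by
      intro r
      obtain ⟨a, rfl⟩ := Ideal.Quotient.mk_surjective r
      change Ideal.Quotient.mk Q (σ1 • algebraMap OL OQ a) = Ideal.Quotient.mk Q (algebraMap OL OQ a)
      rw [hσ0L _ _ hσ1x, Ideal.Quotient.eq, ← map_sub]
      exact hτ a)
  obtain ⟨⟨h', hh'⟩, hφ⟩ := Ideal.Quotient.stabilizerHom_surjective_of_profinite
    (G := HL) (Q.under OL) Q φ
  refine ⟨(h'.restrictScalars ℚ)⁻¹ * σ1, fun b => ?_, fun x => ?_⟩
  · have h1 : σ1 • b - h' • b ∈ Q := by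
      rw [← Ideal.Quotient.eq]
      exact (DFunLike.congr_fun hφ (Ideal.Quotient.mk Q b)).symm
    have h2 : (h'⁻¹ : HL) • (σ1 • b - h' • b) ∈ (h'⁻¹ : HL) • Q :=
      Ideal.smul_mem_pointwise_smul _ _ _ h1
    rw [MulAction.mem_stabilizer_iff.1 (inv_mem hh'), smul_sub, inv_smul_smul] at h2
    exact h2
  · rw [AlgEquiv.mul_apply, hσ1x]
    exact (h'⁻¹).commutes (τ x)

end FLTAgent.EllP
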