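import Fermat.Agent.EllP.Centre

/-!
# A one-slope Newton polygon

If `f : ℤ[X]` has degree `d`, leading coefficient `p` and all its roots outside the valuation
ring of a place over `p`, then every root `x` satisfies `|x| ^ d * |p| = 1`.
-/

set_option autoImplicit false

noncomputable section

open Polynomial

namespace FLTAgent.EllP

local notation "Qb" => AlgebraicClosure ℚ

section Coeffs

variable {L : Type*} [Field L] (A : ValuationSubring L)

/-- The product of `a X - 1` over a multiset of elements `a` of the maximal ideal reduces to a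
unit constant. -/
theorem valuation_coeff_prod_small (s : Multiset L) (hs : ∀ a ∈ s, A.valuation a < 1) :
    A.valuation ((s.map fun a => C a * X - 1).prod.coeff 0) = 1 ∧
      ∀ i, A.valuation ((s.map fun a => C a * X - 1).prod.coeff (i + 1)) < 1 := by
  induction s using Multiset.induction with
  | empty => simp [Polynomial.coeff_one]
  | cons a s ih =>
    obtain ⟨h0, h1⟩ := ih fun b hb => hs b (Multiset.mem_cons_of_mem hb)
    have ha := hs a (Multiset.mem_cons_self a s)
    rw [Multiset.map_cons, Multiset.prod_cons]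
    set P := (s.map fun a => C a * X - 1).prod with hP
    constructor
    · rw [sub_mul, mul_assoc, coeff_sub, coeff_C_mul, coeff_X_mul_zero, mul_zero, zero_sub,
        one_mul, Valuation.map_neg, h0]
    · intro i
      rw [sub_mul, mul_assoc, coeff_sub, coeff_C_mul, coeff_X_mul, one_mul]
      refine lt_of_le_of_lt (A.valuation.map_sub _ _) (max_lt ?_ (h1 i))
      rw [map_mul]
      refine mul_lt_one_of_nonneg_of_lt_one_left zero_le ha ?_
      cases i with
      | zero => exact h0.le
      | succ j => exact (h1 j).le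

end Coeffs

/-- Newton polygon with a single slope. -/
theorem valuation_root_pow_mul_eq_one (A : ValuationSubring Qb) {p : ℕ} (hp : p.Prime)
    (hA : A.LiesOverPrime p) (f : ℤ[X]) {d : ℕ} (hd : f.natDegree = d) (hlead : f.coeff d = p)
    (hroots : ∀ x : Qb, aeval x f = 0 → x ∉ A) {x : Qb} (hx : aeval x f = 0) :
    A.valuation x ^ d * A.valuation (p : Qb) = 1 := by
  set v := A.valuation with hv
  have hp1 : v (p : Qb) < 1 := hA
  have hp0 : v (p : Qb) ≠ 0 := by simpa using hp.ne_zero
  have hd0 : d ≠ 0 := by
    rintro rfl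
    rw [Polynomial.eq_C_of_natDegree_eq_zero hd, hlead] at hx
    simp [hp.ne_zero] at hx
  have hf0 : f ≠ 0 := fun h => by simp [h, Ne.symm hd0] at hd
  set g : Qb[X] := f.map (algebraMap ℤ Qb) with hg
  have hgcoeff : ∀ i, g.coeff i = (f.coeff i : Qb) := fun i => by simp [hg, coeff_map]
  have hglead : g.leadingCoeff = (p : Qb) := by
    rw [hg, leadingCoeff_map_of_injective (FaithfulSMul.algebraMap_injective ℤ Qb), leadingCoeff,
      hd, hlead]
    simp
  have hgne : g ≠ 0 := (Polynomial.map_ne_zero_iff (FaithfulSMul.algebraMap_injective ℤ Qb)).2 hf0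
  have hr : ∀ r ∈ g.roots, 1 < v r := by
    intro r hr
    have h := hroots r (by
      rw [← Polynomial.eval_map_algebraMap]; exact (Polynomial.mem_roots hgne).1 hr)
    exact not_le.1 fun h' => h ((A.valuation_le_one_iff r).1 h')
  set T := ((g.roots.map fun r => r⁻¹).map fun a => C a * X - 1).prod with hT
  set K := g.leadingCoeff * g.roots.prod with hK
  have hprod : g = C K * T := by
    conv_lhs => rw [(IsAlgClosed.splits g).eq_prod_roots]
    rw [hK, C_mul, mul_assoc]
    congr 1
    rw [hT, ← (g.roots.prod_hom C : (g.roots.map C).prod = C g.roots.prod), Multiset.map_map,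
      ← Multiset.prod_map_mul]
    refine congrArg Multiset.prod (Multiset.map_congr rfl fun r hrm => ?_)
    have hr0 : r ≠ 0 := fun h => by simpa [h] using hr r hrm
    simp only [Function.comp]
    rw [mul_sub, ← mul_assoc, ← C_mul, mul_inv_cancel₀ hr0, C_1, one_mul, mul_one]
  obtain ⟨hT0, hT1⟩ := valuation_coeff_prod_small A (g.roots.map fun r => r⁻¹) fun a ha => by
    obtain ⟨r, hr', rfl⟩ := Multiset.mem_map.1 ha
    rw [map_inv₀]
    exact inv_lt_one_of_one_lt₀ (hr r hr')
  have hK0 : v ((f.coeff 0 : ℤ) : Qb) = v K := by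
    rw [← hgcoeff, hprod, coeff_C_mul, map_mul, hT0, mul_one]
  have hlt : ∀ i, i ≠ 0 → v ((f.coeff i : ℤ) : Qb) < v ((f.coeff 0 : ℤ) : Qb) ∨ K = 0 := by
    rintro (_ | i) hi
    · exact absurd rfl hi
    by_cases hKz : K = 0
    · exact Or.inr hKz
    left
    rw [hK0, ← hgcoeff, hprod, coeff_C_mul, map_mul]
    exact mul_lt_of_lt_one_right (pos_of_ne_zero ((map_ne_zero v).2 hKz)) (hT1 i)
  have hKne : K ≠ 0 := fun h => hgne (by rw [hprod, h, C_0, zero_mul])
  replace hlt : ∀ i, i ≠ 0 → v ((f.coeff i : ℤ) : Qb) < v ((f.coeff 0 : ℤ) : Qb) :=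
    fun i hi => (hlt i hi).resolve_right hKne
  have hint : ∀ n : ℤ, v (n : Qb) ≤ 1 := fun n => (A.valuation_le_one_iff _).2 (intCast_mem A n)
  have hdiv : ∀ n : ℤ, v (n : Qb) < 1 → v (n : Qb) ≤ v (p : Qb) := by
    intro n hn
    obtain ⟨m, rfl⟩ := (intCast_mem_nonunits hp hA).1 hn
    push_cast
    rw [map_mul]
    exact mul_le_of_le_one_right zero_le (hint m)
  have hsmall : ∀ i, i ≠ 0 → v ((f.coeff i : ℤ) : Qb) ≤ v (p : Qb) :=
    fun i hi => hdiv _ ((hlt i hi).trans_le (hint _))
  have hc0 : v ((f.coeff 0 : ℤ) : Qb) = 1 := by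
    refine le_antisymm (hint _) (not_lt.1 fun h => ?_)
    have h1 := hlt d hd0
    rw [hlead, Int.cast_natCast] at h1
    exact (hdiv _ h).not_gt h1
  have hX1 : 1 < v x := not_le.1 fun h => hroots x hx ((A.valuation_le_one_iff x).1 h)
  have hsum : ∑ i ∈ Finset.range (d + 1), ((f.coeff i : ℤ) : Qb) * x ^ i = 0 := by
    rw [← hx, aeval_eq_sum_range, hd]
    simp [zsmul_eq_mul]
  rcases lt_trichotomy (v x ^ d * v (p : Qb)) 1 with h | h | h
  · exfalso
    have hkey := A.valuation.map_sum_eq_of_lt (s := Finset.range (d + 1))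
      (f := fun i => ((f.coeff i : ℤ) : Qb) * x ^ i) (j := 0) (by simp) (fun i hi => by
        simp only [Finset.mem_sdiff, Finset.mem_range, Finset.mem_singleton] at hi
        simp only [pow_zero, mul_one, map_mul, map_pow, ← hv, hc0]
        calc v ((f.coeff i : ℤ) : Qb) * v x ^ i ≤ v (p : Qb) * v x ^ d := by
              gcongr
              · exact hsmall i hi.2
              · exact hX1.le
              · omega
          _ < 1 := by rwa [mul_comm])
    rw [hsum, map_zero, pow_zero, mul_one, ← hv, hc0] at hkey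
    exact zero_ne_one hkey
  · exact h
  · exfalso
    have hlead' : v (((f.coeff d : ℤ) : Qb) * x ^ d) = v x ^ d * v (p : Qb) := by
      rw [map_mul, map_pow, hlead, Int.cast_natCast, mul_comm]
    have hkey := A.valuation.map_sum_eq_of_lt (s := Finset.range (d + 1))
      (f := fun i => ((f.coeff i : ℤ) : Qb) * x ^ i) (j := d) (by simp) (fun i hi => by
        simp only [Finset.mem_sdiff, Finset.mem_range, Finset.mem_singleton] at hi
        rw [hlead']
        simp only [map_mul, map_pow, ← hv]
        rcases eq_or_ne i 0 with rfl | hi0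
        · simpa [hc0] using h
        · calc v ((f.coeff i : ℤ) : Qb) * v x ^ i ≤ v (p : Qb) * v x ^ i := by
                gcongr
                exact hsmall i hi0
            _ < v (p : Qb) * v x ^ d := by
                refine mul_lt_mul_of_pos_left ?_ (pos_of_ne_zero hp0)
                exact pow_lt_pow_right₀ hX1 (by omega)
            _ = v x ^ d * v (p : Qb) := mul_comm _ _)
    rw [hsum, map_zero, hlead'] at hkey
    exact (h.trans' zero_lt_one).ne hkey

end FLTAgent.EllP
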