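import Fermat.Agent.EllP.Unramified
import Fermat.Agent.EllP.Newton
import Fermat.Agent.EllTorsion.Galois
import Fermat.Agent.EllTorsion.Mul

/-!
# No inertia-stable line when all of `E[p]` is in the formal group

For an integral Weierstrass curve and an odd prime `p`, if all `p`-torsion points reduce to infinity
at a place over `p`, then `|x(P)| ^ ((p² - 1) / 2) * |p| = 1` for each nonzero one
(`valuation_xCoord_pow`, from the Newton polygon of the division polynomial), so no line of `E[p]`
is stable under inertia there (`not_inertiaStable_line_of_formal`): the product of the `x`-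
coordinates on such a line would be fixed by inertia and have a fractional valuation.
-/

set_option autoImplicit false

noncomputable section

open Polynomial WeierstrassCurve WeierstrassCurve.Affine.Point
open scoped WeierstrassCurve.Affine

namespace FLTAgent.EllP

local notation "Qb" => AlgebraicClosure ℚ
local notation "GQ" => (AlgebraicClosure ℚ ≃ₐ[ℚ] AlgebraicClosure ℚ)

/-- The geometric points of an integral Weierstrass curve. -/
abbrev QPoint (W : WeierstrassCurve ℤ) : Type :=
  ((W.map (Int.castRingHom ℚ))⁄(AlgebraicClosure ℚ)).Point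

/-- The `p`-torsion of the geometric points. -/
abbrev QTorsion (W : WeierstrassCurve ℤ) (p : ℕ) :=
  Submodule.torsionBy ℤ (QPoint W) p

/-- The `x`-coordinate, with the value `0` at infinity. -/
def xCoord {W : WeierstrassCurve ℤ} : QPoint W → Qb
  | .zero => 0
  | .some x _ _ => x

/-- A point reduces to infinity at the place `A`. -/
def InFormalAt {W : WeierstrassCurve ℤ} (A : ValuationSubring Qb) (P : QPoint W) : Prop :=
  P = 0 ∨ xCoord P ∉ A

theorem xCoord_smul {W : WeierstrassCurve ℤ} (σ : GQ) (P : QPoint W) :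
    xCoord (σ • P) = σ (xCoord P) := by
  cases P with
  | zero => exact (map_zero σ).symm
  | some x y h => rfl

theorem baseChange_eq_map (W : WeierstrassCurve ℤ) :
    ((W.map (Int.castRingHom ℚ))⁄Qb) = W.map (algebraMap ℤ Qb) := by
  change (W.map (Int.castRingHom ℚ)).map (algebraMap ℚ Qb) = _
  rw [WeierstrassCurve.map_map]
  congr 1

theorem isElliptic_baseChange {W : WeierstrassCurve ℤ} (hΔ : W.Δ ≠ 0) :
    ((W.map (Int.castRingHom ℚ))⁄Qb).toAffine.IsElliptic := by
  refine EllTorsion.isElliptic_of_Δ_ne_zero ?_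
  change ((W.map (Int.castRingHom ℚ))⁄Qb).Δ ≠ 0
  rw [baseChange_eq_map, map_Δ]
  simpa using hΔ

theorem preΨ'_baseChange (W : WeierstrassCurve ℤ) (n : ℕ) :
    ((W.map (Int.castRingHom ℚ))⁄Qb).preΨ' n = (W.preΨ' n).map (algebraMap ℤ Qb) := by
  rw [baseChange_eq_map, map_preΨ']

variable (W : WeierstrassCurve ℤ)

/-- The roots of the `p`th division polynomial are the `x`-coordinates of the nonzero
`p`-torsion points. -/
theorem aeval_preΨ'_eq_zero_iff (hΔ : W.Δ ≠ 0) {n : ℕ} (hn : Odd n) {x y : Qb}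
    (h : ((W.map (Int.castRingHom ℚ))⁄Qb).toAffine.Nonsingular x y) :
    n • (Affine.Point.some x y h : QPoint W) = 0 ↔ aeval x (W.preΨ' n) = 0 := by
  have := isElliptic_baseChange hΔ
  rw [EllTorsion.nsmul_some_eq_zero_iff_preΨ' hn h, preΨ'_baseChange, eval_map_algebraMap]

theorem exists_point_of_x (hΔ : W.Δ ≠ 0) (x : Qb) :
    ∃ y, ((W.map (Int.castRingHom ℚ))⁄Qb).toAffine.Nonsingular x y := by
  have := isElliptic_baseChange hΔ
  set E := ((W.map (Int.castRingHom ℚ))⁄Qb).toAffine with hE
  obtain ⟨y, hy⟩ := IsAlgClosed.exists_root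
    (C 1 * X ^ 2 + C (E.a₁ * x + E.a₃) * X + C (-(x ^ 3 + E.a₂ * x ^ 2 + E.a₄ * x + E.a₆)))
    (by rw [degree_quadratic one_ne_zero]; decide)
  refine ⟨y, (Affine.equation_iff_nonsingular).1 ?_⟩
  rw [Affine.equation_iff]
  simp only [IsRoot, eval_add, eval_mul, eval_C, eval_pow, eval_X] at hy
  linear_combination hy

/-- When all of `E[p]` is in the formal group, every nonzero `p`-torsion point `P` satisfies
`|x(P)| ^ ((p² - 1) / 2) * |p| = 1`. -/
theorem valuation_xCoord_pow (hΔ : W.Δ ≠ 0) {p : ℕ} (hp : p.Prime) (hp2 : p ≠ 2)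
    (A : ValuationSubring Qb) (hA : A.LiesOverPrime p)
    (hformal : ∀ P : QTorsion W p, InFormalAt A (P : QPoint W))
    (P : QTorsion W p) (hP : P ≠ 0) :
    A.valuation (xCoord (P : QPoint W)) ^ ((p ^ 2 - 1) / 2) * A.valuation (p : Qb) = 1 := by
  have hpodd : Odd p := hp.odd_of_ne_two hp2
  have hpne : ((p : ℕ) : ℤ) ≠ 0 := by exact_mod_cast hp.ne_zero
  obtain ⟨P, hPmem⟩ := P
  have hPp : p • P = 0 := by simpa [Submodule.mem_torsionBy_iff] using hPmem
  cases P with
  | zero => exact absurd rfl hP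
  | some x y h =>
    refine valuation_root_pow_mul_eq_one A hp hA (W.preΨ' p) ?_ ?_ ?_
      ((aeval_preΨ'_eq_zero_iff W hΔ hpodd h).1 hPp)
    · rw [natDegree_preΨ' W hpne, if_neg (Nat.not_even_iff_odd.2 hpodd)]
    · have := coeff_preΨ' W p
      rw [if_neg (Nat.not_even_iff_odd.2 hpodd), if_neg (Nat.not_even_iff_odd.2 hpodd)] at this
      simpa using this
    · intro r hr
      obtain ⟨s, hs⟩ := exists_point_of_x W hΔ r
      have hmem : (Affine.Point.some r s hs : QPoint W) ∈ Submodule.torsionBy ℤ (QPoint W) p := by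
        rw [Submodule.mem_torsionBy_iff, natCast_zsmul, aeval_preΨ'_eq_zero_iff W hΔ hpodd hs]
        exact hr
      rcases hformal ⟨_, hmem⟩ with h0 | h0
      · exact absurd h0 (by simp)
      · exact h0

/-- When all of `E[p]` is in the formal group at a place over `p`, inertia fixes no line. -/
theorem not_inertiaStable_line_of_formal (hΔ : W.Δ ≠ 0) {p : ℕ} (hp : p.Prime) (hp2 : p ≠ 2)
    (A : ValuationSubring Qb) (hA : A.LiesOverPrime p)
    (hformal : ∀ P : QTorsion W p, InFormalAt A (P : QPoint W))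
    (N : Submodule (ZMod p) (QTorsion W p)) (hN : Nat.card N = p)
    (hstab : ∀ σ ∈ A.inertiaSubgroupIn ℚ, ∀ P ∈ N, σ • P ∈ N) : False := by
  classical
  have : Fact p.Prime := ⟨hp⟩
  have : Finite N := Nat.finite_of_card_ne_zero (by rw [hN]; exact hp.ne_zero)
  have : Fintype N := Fintype.ofFinite N
  set S : Finset N := Finset.univ.erase 0 with hS
  set d := (p ^ 2 - 1) / 2 with hd
  set x : N → Qb := fun P => xCoord ((P : QTorsion W p) : QPoint W) with hx
  set π : Qb := ∏ P ∈ S, x P with hπ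
  set v := A.valuation
  have hp1 : v (p : Qb) < 1 := hA
  have hp0 : v (p : Qb) ≠ 0 := by simpa [v] using hp.ne_zero
  have hP : ∀ P ∈ S, v (x P) ^ d * v (p : Qb) = 1 := fun P hPS =>
    valuation_xCoord_pow W hΔ hp hp2 A hA hformal P fun h =>
      (Finset.mem_erase.1 hPS).1 (Subtype.ext h)
  have hπv : v π ^ d * v (p : Qb) ^ (p - 1) = 1 := by
    have hcard : S.card = p - 1 := by
      rw [hS, Finset.card_erase_of_mem (Finset.mem_univ _), Finset.card_univ,
        ← Nat.card_eq_fintype_card, hN]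
    rw [hπ, map_prod, ← Finset.prod_pow, ← hcard, ← Finset.prod_const, ← Finset.prod_mul_distrib]
    exact Finset.prod_eq_one hP
  have hπ0 : π ≠ 0 := by
    intro h
    have hd0 : d ≠ 0 := by
      have := hp.two_le
      have : 4 ≤ p ^ 2 := by nlinarith
      omega
    simp [h, zero_pow hd0] at hπv
  have hfix : ∀ σ ∈ A.inertiaSubgroupIn ℚ, σ π = π := by
    intro σ hσ
    let e : N → N := fun P => ⟨σ • (P : QTorsion W p), hstab σ hσ _ P.2⟩
    have heinj : Function.Injective e := fun P Q h =>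
      Subtype.ext (smul_left_cancel σ (congrArg Subtype.val h))
    have hebij : Function.Bijective e := Finite.injective_iff_bijective.1 heinj
    rw [hπ, map_prod]
    refine Finset.prod_bij (fun P _ => e P) ?_ (fun P _ Q _ h => heinj h) ?_ ?_
    · intro P hPS
      refine Finset.mem_erase.2 ⟨fun h => (Finset.mem_erase.1 hPS).1 (heinj ?_), Finset.mem_univ _⟩
      rw [h]
      exact Subtype.ext (smul_zero σ).symm
    · intro Q hQS
      obtain ⟨P, rfl⟩ := hebij.2 Q
      refine ⟨P, Finset.mem_erase.2 ⟨fun h => (Finset.mem_erase.1 hQS).1 ?_, Finset.mem_univ _⟩, rfl⟩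
      rw [h]
      exact Subtype.ext (smul_zero σ)
    · intro P _
      exact (xCoord_smul σ _).symm
  obtain ⟨k, hk⟩ := exists_valuation_eq_zpow hp hA hπ0 hfix
  rw [hk, ← zpow_natCast, ← zpow_mul, ← zpow_natCast, ← zpow_add₀ hp0] at hπv
  have hexp : k * (d : ℤ) + ((p - 1 : ℕ) : ℤ) = 0 := by
    rw [← zpow_zero (v (p : Qb))] at hπv
    exact (zpow_right_strictAnti₀ (pos_of_ne_zero hp0) hp1).injective hπv
  obtain ⟨m, rfl⟩ := hp.odd_of_ne_two hp2
  have hd' : d = 2 * m * (m + 1) := by
    rw [hd, show (2 * m + 1) ^ 2 - 1 = 2 * (2 * m * (m + 1)) by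
      rw [Nat.sub_eq_iff_eq_add (Nat.one_le_pow _ _ (by omega))]; ring]
    omega
  have hm : 1 ≤ m := by have := hp.two_le; omega
  rw [hd', show 2 * m + 1 - 1 = 2 * m by omega] at hexp
  push_cast at hexp
  have h2 : (2 * (m : ℤ)) * (k * (m + 1) + 1) = 0 := by linear_combination hexp
  have h3 : k * ((m : ℤ) + 1) = -1 := by
    rcases mul_eq_zero.1 h2 with h | h <;> omega
  have : ((m : ℤ) + 1) ∣ 1 := ⟨-k, by linear_combination h3⟩
  have := Int.le_of_dvd one_pos this
  omega

end FLTAgent.EllP
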